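import Fermat.Agent.S56.Font.KT.Good
import Fermat.Agent.S56.Font.KT.KPC
import Fermat.Agent.S56.Font.KT.H90

/-!
# S56 / Flat / Irr / KTIface : the two abstract theorems of the FIELD SIDE (owner: helper78, dir `S56/Font/KT/`).

LT formalism: `(Γ, C, v, p)` strictly henselian, `C` algebraically closed, `π^(p²-1) = p`, `L = K₀(π)`, `N = Stab π`, `θ s = s π / π`.
`M ≤ Γ` open with the Kummer bound `KumOK v p π M`.   `b : Γ → k` is *good for `χ`* if it is additive on `N`, zero on `N ⊓ M`, and `b (s t s⁻¹) = χ s * b t`.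
For `a ∈ k` the character `t ↦ ζ^(tr (a b t))` of `N` has a Kummer generator `u_b(a) ∈ (1 + p O_L) L^{×p}`; leading term at level `e + i`, `0 ≤ i ≤ p`, `i ≠ 1`:
`x_b : k → κ` additive, `x_b (χ s a) = ω(s) θ(s)^(-i) x_b a`.
[KT-H] `χ = 1`: `θ^(p+1-i) = 1` is impossible for `0 ≤ i ≤ p`: `b = 0` on `N`.
[KT-B] `χ = ψ^(1-p)`, `ψ^(p+1) = ω`, `ψ^p ≠ ψ`: `ψ = ι⁻¹ θ^a`, `a ≡ 1 mod p-1`; `p+1-i ≡ ± a (p-1) mod p²-1` forces `i = 2`; `x_b` is `𝔽_{p²}`-linear, and `x_b (m a) = c x_b(a)^(p²)`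
 (Frobenius²): at most `#k` such maps; `b ↦ x_b` is injective and `k`-equivariant (`x_{t b}(a) = x_b(t a)`): the space of good `b` is a `k`-line.
-/

set_option autoImplicit false
set_option linter.unusedVariables false
set_option linter.style.haveILetI false

namespace Fermat.Agent.S56.Font

open MulAction

variable {C : Type} [Field C] {Γ₀ : Type} [LinearOrderedCommGroupWithZero Γ₀]
  {Γ : Type} [Group Γ] [MulSemiringAction Γ C] {k : Type} [Field k]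

-- `IsGoodHom` is defined in `Font/KT/Good.lean`.

/-! ## the bridge to `kp_zero`, `kp_card` (helper58) -/

namespace KTB

variable {v : Valuation C Γ₀} {p : ℕ}

/-- `Γ` is transitive on the roots of `X^e - ϖ` -/
theorem exists_smul_eq_of_pow_eq {ϖ : C} (h : IsSH Γ v ϖ) {π π' : C} {e : ℕ} (hπ : π ^ e = ϖ)
    (hπ' : π' ^ e = ϖ) : ∃ s : Γ, s • π = π' := by
  classical
  have hT := isTot_of_pow_eq h hπ
  have he : e ≠ 0 := by
    rintro rfl
    rw [pow_zero] at hπ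
    have := h.lt_one
    rw [← hπ, map_one] at this
    exact lt_irrefl _ this
  have hQ0 : (Polynomial.X ^ e - Polynomial.C ϖ : Polynomial C) ≠ 0 :=
    (Polynomial.monic_X_pow_sub_C ϖ he).ne_zero
  have hsub : orbF h π ⊆ (Polynomial.X ^ e - Polynomial.C ϖ : Polynomial C).roots.toFinset := by
    intro z hz
    obtain ⟨g, rfl⟩ := (mem_orbF h).1 hz
    rw [Multiset.mem_toFinset, Polynomial.mem_roots hQ0, Polynomial.IsRoot.def]
    simp only [Polynomial.eval_sub, Polynomial.eval_pow, Polynomial.eval_X, Polynomial.eval_C]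
    rw [← smul_pow', hπ, h.fix g, sub_self]
  have hcard : (Polynomial.X ^ e - Polynomial.C ϖ : Polynomial C).roots.toFinset.card ≤
      (orbF h π).card := by
    rw [card_orbF h, hT.index]
    refine (Multiset.toFinset_card_le _).trans ?_
    refine (Polynomial.card_roots' _).trans ?_
    rw [Polynomial.natDegree_X_pow_sub_C]
  have heq := Finset.eq_of_subset_of_card_le hsub hcard
  have hmem : π' ∈ orbF h π := by
    rw [heq, Multiset.mem_toFinset, Polynomial.mem_roots hQ0, Polynomial.IsRoot.def]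
    simp only [Polynomial.eval_sub, Polynomial.eval_pow, Polynomial.eval_X, Polynomial.eval_C]
    rw [hπ', sub_self]
  exact (mem_orbF h).1 hmem

theorem not_dvd_sq_sub_one' (hp : p.Prime) : ¬ p ∣ p ^ 2 - 1 := by
  intro h
  have h1 : p ∣ p ^ 2 := dvd_pow_self p two_ne_zero
  have h2 : 1 ≤ p ^ 2 := Nat.one_le_pow _ _ hp.pos
  have h3 : p ∣ p ^ 2 - (p ^ 2 - 1) := Nat.dvd_sub h1 h
  have h4 : p ^ 2 - (p ^ 2 - 1) = 1 := by omega
  rw [h4] at h3
  exact hp.one_lt.ne' (Nat.dvd_one.1 h3)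

theorem sq_sub_one_eq (hp : p.Prime) : p ^ 2 - 1 = (p - 1) * (p + 1) := by
  obtain ⟨m, rfl⟩ : ∃ m, p = m + 1 := ⟨p - 1, by have := hp.pos; omega⟩
  have : (m + 1) ^ 2 = (m + 1 - 1) * (m + 1 + 1) + 1 := by
    simp only [Nat.add_sub_cancel]; ring
  omega

/-- additive + trivial on an open `M` with the Kummer bound ⟹ peu ramifié -/
theorem peu_of_add [IsAlgClosed C] (hp : p.Prime) (h : IsSH Γ v (p : C))
    {π : C} (hπ : π ^ (p ^ 2 - 1) = (p : C)) {M : Subgroup Γ} (hMo : IsOpenIn C M)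
    (hM : KumOK v p π M) {ζ : C} (hζ : IsPrimitiveRoot ζ p)
    (f : ↥(stabilizer Γ π) → k) (hadd : ∀ x y, f (x * y) = f x + f y)
    (hzero : ∀ x : ↥(stabilizer Γ π), (x : Γ) ∈ M → f x = 0) : Peu p v π ζ f := by
  haveI : NeZero p := ⟨hp.ne_zero⟩
  intro l
  have hζL : InL Γ π ζ := fun x hx =>
    smul_zeta_of_mem_stabilizer hp h hπ (sq_sub_one_eq hp) hζ hx
  obtain ⟨α, hα⟩ := exists_isKum (β := fun x => l (f x)) h (isTot_of_pow_eq h hπ) hζ hζL
    (fun x y => by simp only [hadd, map_add]) hMo (fun x hx => by simp only [hzero x hx, map_zero])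
  obtain ⟨y, hy0, hy, hval⟩ := hM α hα.1 (hα.pow_inL hζ.pow_eq_one) (fun s hs => by
    have h1 := hα.2 ⟨s, hs.1⟩
    simp only [hzero ⟨s, hs.1⟩ hs.2, map_zero, ZMod.val_zero, pow_zero, one_mul] at h1
    exact h1)
  refine ⟨α * y, hα.mul_inL hy0 hy, ?_⟩
  rwa [mul_pow]

/-- `v (a^n - b^n) ≤ v (a - b)` for integral `a`, `b` -/
theorem val_pow_sub_pow_le {a b : C} (ha : v a ≤ 1) (hb : v b ≤ 1) (n : ℕ) :
    v (a ^ n - b ^ n) ≤ v (a - b) := by
  obtain ⟨c, hc⟩ : ∃ c : C, v c ≤ 1 ∧ a ^ n - b ^ n = (a - b) * c := by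
    induction n with
    | zero => exact ⟨0, by simp, by simp⟩
    | succ n ih =>
      obtain ⟨c, hc1, hc⟩ := ih
      refine ⟨c * a + b ^ n, ?_, ?_⟩
      · refine (v.map_add _ _).trans (max_le ?_ ?_)
        · rw [map_mul]; exact mul_le_one₀ hc1 zero_le ha
        · rw [map_pow]; exact pow_le_one₀ zero_le hb
      · have : a ^ (n + 1) - b ^ (n + 1) = (a ^ n - b ^ n) * a + (a - b) * b ^ n := by ring
        rw [this, hc]; ring
  rw [hc.2, map_mul]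
  exact mul_le_of_le_one_right zero_le hc.1

/-- a Frobenius raises roots of unity of order prime to `p` to the `p`-th power -/
theorem frob_root_of_unity (hp : p.Prime) (hv : v (p : C) < 1) (Fr : C ≃+* C)
    (hFr : ∀ x, v x ≤ 1 → v (Fr x - x ^ p) < 1) {m : ℕ} (hm : ¬ p ∣ m) {η : C} (hη : η ^ m = 1) :
    Fr η = η ^ p := by
  have hm0 : m ≠ 0 := by rintro rfl; exact hm (dvd_zero p)
  have hη0 : η ≠ 0 := by
    rintro rfl
    rw [zero_pow hm0] at hη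
    exact zero_ne_one hη
  have hv1 : v η = 1 := ThetaAux.val_eq_one_of_val_pow hm0 (by rw [← map_pow, hη, map_one])
  have h1 : (Fr η / η ^ p) ^ m = 1 := by
    rw [div_pow, ← map_pow, hη, map_one, ← pow_mul, mul_comm, pow_mul, hη, one_pow, div_one]
  have h2 : v (Fr η / η ^ p - 1) < 1 := by
    have e : Fr η / η ^ p - 1 = (Fr η - η ^ p) / η ^ p := by
      field_simp
    rw [e, map_div₀, map_pow, hv1, one_pow, div_one]
    exact hFr η hv1.le
  have h3 := eq_one_of_pow_eq_one_of_near hp hv hm h1 h2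
  rwa [div_eq_one_iff_eq (pow_ne_zero _ hη0)] at h3

theorem tht_pow_nat (hp : p.Prime) (h : IsSH Γ v (p : C)) {π : C} {e : ℕ} (hπe : π ^ e = (p : C))
    (hpe : ¬ p ∣ e) (s : Γ) (n : ℕ) : tht π (s ^ n) = tht π s ^ n := by
  induction n with
  | zero =>
    rw [pow_zero, pow_zero, tht_eq_one_iff h hπe]
    exact one_mem _
  | succ n ih => rw [pow_succ, pow_succ, tht_mul hp h hπe hpe, ih]

/-- in characteristic `p`, `w^p = 1 → w = 1` -/
theorem eq_one_of_pow_p [CharP k p] (hp : p.Prime) {w : k} (hw : w ^ p = 1) : w = 1 := by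
  haveI : Fact p.Prime := ⟨hp⟩
  have h1 : (w - 1) ^ p = 0 := by rw [sub_pow_char, hw, one_pow, sub_self]
  exact sub_eq_zero.1 (pow_eq_zero_iff hp.ne_zero |>.1 h1)

theorem natCast_pow_p [CharP k p] (hp : p.Prime) (n : ℕ) : (n : k) ^ p = n := by
  haveI : Fact p.Prime := ⟨hp⟩
  have := map_natCast (frobenius k p) n
  rwa [frobenius_def] at this

end KTB

open KTB

variable [IsAlgClosed C] [Finite k] {v : Valuation C Γ₀} {p : ℕ} [CharP k p]

/-- **[KT-H]** -/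
theorem kt_h (hp : p.Prime) (hp2 : p ≠ 2) (h : IsSH Γ v (p : C))
    (harch : ∀ g : Γ₀, g < 1 → ∀ d : Γ₀, d ≠ 0 → ∃ n : ℕ, g ^ n ≤ d)
    {π : C} (hπ : π ^ (p ^ 2 - 1) = (p : C)) {M : Subgroup Γ} (hMo : IsOpenIn C M)
    (hM : KumOK v p π M) {b : Γ → k} (hb : IsGoodHom π M (fun _ => (1 : k)) b) :
    ∀ t ∈ stabilizer Γ π, b t = 0 := by
  haveI : NeZero ((p : ℕ) : C) := ⟨h.ne_zero⟩
  obtain ⟨ζ, hζ⟩ := HasEnoughRootsOfUnity.exists_primitiveRoot C p
  have hPeu := peu_of_add hp h hπ hMo hM hζ (fun x : ↥(stabilizer Γ π) => b x)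
    (fun x y => hb.add x x.2 y y.2) (fun x hx => hb.zero x ⟨x.2, hx⟩)
  have h0 := kp_zero hp hp2 h hπ hζ _ hPeu (fun s x y hy => by
    show b y = b x
    rw [hy, hb.conj s x x.2, one_mul])
  intro t ht
  exact congrFun h0 ⟨t, ht⟩


/-- **[KT-B]** -/
theorem kt_b (hp : p.Prime) (hp2 : p ≠ 2) (h : IsSH Γ v (p : C))
    (harch : ∀ g : Γ₀, g < 1 → ∀ d : Γ₀, d ≠ 0 → ∃ n : ℕ, g ^ n ≤ d)
    {π : C} (hπ : π ^ (p ^ 2 - 1) = (p : C)) {M : Subgroup Γ} (hMo : IsOpenIn C M)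
    (hM : KumOK v p π M) {ζ : C} (hζ : IsPrimitiveRoot ζ p)
    (ψ : Γ →* kˣ) (hψN : ∀ s ∈ stabilizer Γ π, ψ s = 1)
    (hψζ : ∀ (s : Γ) (n : ℕ), s • ζ = ζ ^ n → ((ψ s : kˣ) : k) ^ (p + 1) = (n : k))
    (hψne : ∃ s, ((ψ s : kˣ) : k) ^ p ≠ ((ψ s : kˣ) : k))
    (Fr : C ≃+* C) (hFrv : ∀ x, v (Fr x) = v x) (hFr : ∀ x, v x ≤ 1 → v (Fr x - x ^ p) < 1)
    (cF : Γ ≃* Γ) (hcF : ∀ (s : Γ) (x : C), cF s • Fr x = Fr (s • x))
    {b b' : Γ → k}
    (hb : IsGoodHom π M (fun s => ((ψ s : kˣ) : k) / ((ψ s : kˣ) : k) ^ p) b)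
    (hb' : IsGoodHom π M (fun s => ((ψ s : kˣ) : k) / ((ψ s : kˣ) : k) ^ p) b')
    (hbF : ∀ t ∈ stabilizer Γ π, b (cF (cF t)) = b t)
    (hbF' : ∀ t ∈ stabilizer Γ π, b' (cF (cF t)) = b' t)
    (hne : ∃ t ∈ stabilizer Γ π, b t ≠ 0) :
    ∃ t₀ : k, ∀ t ∈ stabilizer Γ π, b' t = t₀ * b t := by
  have hpe := not_dvd_sq_sub_one' hp
  have hπ0 : π ≠ 0 := pi_ne_zero h hπ
  set χ : Γ → k := fun s => ((ψ s : kˣ) : k) / ((ψ s : kˣ) : k) ^ p with hχdef
  -- `Fr π = η₁ π`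
  set η₁ : C := Fr π / π with hη₁
  have hFrπ : Fr π = η₁ * π := by rw [hη₁, div_mul_cancel₀ _ hπ0]
  have hη₁e : η₁ ^ (p ^ 2 - 1) = 1 := by
    rw [hη₁, div_pow, ← map_pow, hπ, map_natCast, div_self h.ne_zero]
  have hFrη : Fr η₁ = η₁ ^ p := frob_root_of_unity hp h.lt_one Fr hFr hpe hη₁e
  set η : C := η₁ ^ (p + 1) with hη
  have hFF : Fr (Fr π) = η * π := by
    rw [hFrπ, map_mul, hFrη, hFrπ, hη, pow_succ]; ring
  have hηe : η ^ (p ^ 2 - 1) = 1 := by rw [hη, ← pow_mul, mul_comm, pow_mul, hη₁e, one_pow]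
  have hηp : η ^ (p - 1) = 1 := by
    rw [hη, ← pow_mul, mul_comm, ← sq_sub_one_eq hp, hη₁e]
  have hη0 : η ≠ 0 := by
    intro h0
    rw [h0, zero_pow (by have := hp.two_le; omega)] at hηp
    exact zero_ne_one hηp
  have hηfix : Fix0 Γ η := fix0_of_pow_eq_one hp h hpe hηe
  -- `s₀`
  obtain ⟨s₀, hs₀⟩ := exists_smul_eq_of_pow_eq h (π := Fr (Fr π)) (π' := π)
    (by rw [← map_pow, ← map_pow, hπ, map_natCast, map_natCast]) hπ
  have hs₀π : s₀ • π = η⁻¹ * π := by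
    have h1 := hs₀
    rw [hFF, smul_mul', hηfix s₀] at h1
    rw [eq_inv_mul_iff_mul_eq₀ hη0, h1]
  have hχs₀ : χ s₀ = 1 := by
    have h1 : tht π s₀ = η⁻¹ := by rw [tht, hs₀π, mul_div_cancel_right₀ _ hπ0]
    have h2 : s₀ ^ (p - 1) ∈ stabilizer Γ π := by
      rw [← tht_eq_one_iff h hπ, tht_pow_nat hp h hπ hpe, h1, inv_pow, hηp, inv_one]
    have h3 := hψN _ h2
    rw [map_pow] at h3
    have h4 : ((ψ s₀ : kˣ) : k) ^ (p - 1) = 1 := by
      have := congrArg (fun u : kˣ => (u : k)) h3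
      simpa using this
    have h5 : ((ψ s₀ : kˣ) : k) ^ p = ((ψ s₀ : kˣ) : k) := by
      conv_lhs => rw [show p = (p - 1) + 1 by have := hp.pos; omega]
      rw [pow_succ, h4, one_mul]
    rw [hχdef]
    simp only
    rw [h5, div_self (Units.ne_zero _)]
  -- `cF (cF t)` stabilises `π`
  have hcc : ∀ t ∈ stabilizer Γ π, cF (cF t) ∈ stabilizer Γ π := by
    intro t ht
    rw [mem_stabilizer_iff] at ht ⊢
    have h1 : cF (cF t) • Fr (Fr π) = Fr (Fr π) := by rw [hcF, hcF, ht]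
    rw [hFF, smul_mul', hηfix] at h1
    exact mul_left_cancel₀ hη0 h1
  -- `Φ`
  let Φ : C →+* C := (MulSemiringAction.toRingHom Γ C s₀).comp
    ((Fr : C →+* C).comp (Fr : C →+* C))
  have hΦdef : ∀ z, Φ z = s₀ • Fr (Fr z) := fun z => rfl
  have hΦπ : Φ π = π := by rw [hΦdef, hs₀]
  have hΦv : ∀ z, v (Φ z) = v z := fun z => by rw [hΦdef, h.inv, hFrv, hFrv]
  have hΦq : ∀ z, v z ≤ 1 → v (Φ z - z ^ (p ^ 2)) < 1 := by
    intro z hz
    have hz1 : v (Fr z) ≤ 1 := by rw [hFrv]; exact hz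
    have hz2 : v (Fr (Fr z)) ≤ 1 := by rw [hFrv]; exact hz1
    have e : Φ z - z ^ (p ^ 2) = (s₀ • Fr (Fr z) - Fr (Fr z)) + ((Fr (Fr z) - Fr z ^ p) +
        (Fr z ^ p - (z ^ p) ^ p)) := by
      rw [hΦdef, ← pow_mul, ← sq]; ring
    rw [e]
    refine lt_of_le_of_lt (v.map_add _ _) (max_lt (val_smul_sub_lt_one h s₀ hz2) ?_)
    refine lt_of_le_of_lt (v.map_add _ _) (max_lt (hFr _ hz1) ?_)
    exact lt_of_le_of_lt (val_pow_sub_pow_le hz1 (by rw [map_pow]; exact pow_le_one₀ zero_le hz) p)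
      (hFr z hz)
  have hΦc0 : ∀ (x : Γ) (z : C), Φ (x • z) = (s₀ * cF (cF x) * s₀⁻¹) • Φ z := by
    intro x z
    rw [hΦdef, hΦdef, ← hcF, ← hcF, mul_smul, mul_smul, inv_smul_smul]
  have hmem : ∀ x ∈ stabilizer Γ π, s₀ * cF (cF x) * s₀⁻¹ ∈ stabilizer Γ π := fun x hx =>
    conj_mem_stabilizer hp h hπ hpe s₀ (hcc x hx)
  let cΦ : ↥(stabilizer Γ π) → ↥(stabilizer Γ π) := fun x => ⟨s₀ * cF (cF x) * s₀⁻¹, hmem x x.2⟩
  have hsurj : Function.Surjective cΦ := by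
    intro y
    have hx : cF.symm (cF.symm (s₀⁻¹ * y * s₀)) ∈ stabilizer Γ π := by
      rw [mem_stabilizer_iff]
      apply Φ.injective
      rw [hΦc0, MulEquiv.apply_symm_apply, MulEquiv.apply_symm_apply, hΦπ]
      have : s₀ * (s₀⁻¹ * (y : Γ) * s₀) * s₀⁻¹ = y := by group
      rw [this]
      exact y.2
    refine ⟨⟨_, hx⟩, ?_⟩
    apply Subtype.ext
    show s₀ * cF (cF (cF.symm (cF.symm (s₀⁻¹ * (y : Γ) * s₀)))) * s₀⁻¹ = y
    rw [MulEquiv.apply_symm_apply, MulEquiv.apply_symm_apply]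
    group
  -- the space `𝔅`
  let 𝔅 : Submodule k (↥(stabilizer Γ π) → k) :=
    { carrier := {f | (∀ x y, f (x * y) = f x + f y) ∧ (∀ x : ↥(stabilizer Γ π), (x : Γ) ∈ M → f x = 0) ∧
        (∀ (s : Γ) (x y : ↥(stabilizer Γ π)), (y : Γ) = s * x * s⁻¹ → f y = χ s * f x) ∧
        ∀ x, f (cΦ x) = f x}
      add_mem' := by
        rintro f g ⟨f1, f2, f3, f4⟩ ⟨g1, g2, g3, g4⟩
        refine ⟨fun x y => ?_, fun x hx => ?_, fun s x y hy => ?_, fun x => ?_⟩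
        · simp only [Pi.add_apply, f1, g1]; ring
        · simp only [Pi.add_apply, f2 x hx, g2 x hx, add_zero]
        · simp only [Pi.add_apply, f3 s x y hy, g3 s x y hy]; ring
        · simp only [Pi.add_apply, f4, g4]
      zero_mem' := ⟨fun _ _ => by simp, fun _ _ => rfl, fun _ _ _ _ => by simp, fun _ => rfl⟩
      smul_mem' := by
        rintro a f ⟨f1, f2, f3, f4⟩
        refine ⟨fun x y => ?_, fun x hx => ?_, fun s x y hy => ?_, fun x => ?_⟩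
        · simp only [Pi.smul_apply, f1, smul_eq_mul]; ring
        · simp only [Pi.smul_apply, f2 x hx, smul_zero]
        · simp only [Pi.smul_apply, f3 s x y hy, smul_eq_mul]; ring
        · simp only [Pi.smul_apply, f4] }
  have hin : ∀ {d : Γ → k}, IsGoodHom π M χ d → (∀ t ∈ stabilizer Γ π, d (cF (cF t)) = d t) →
      (fun x : ↥(stabilizer Γ π) => d x) ∈ 𝔅 := by
    intro d hd hdF
    refine ⟨fun x y => hd.add x x.2 y y.2, fun x hx => hd.zero x ⟨x.2, hx⟩, fun s x y hy => ?_,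
      fun x => ?_⟩
    · show d y = χ s * d x
      rw [hy, hd.conj s x x.2]
    · show d (s₀ * cF (cF x) * s₀⁻¹) = d x
      rw [hd.conj s₀ _ (hcc x x.2), hχs₀, one_mul, hdF x x.2]
  -- properties of `χ`
  have hex : ∀ s : Γ, ∃ m : ℕ, s • ζ = ζ ^ m := by
    intro s
    haveI : NeZero p := ⟨hp.ne_zero⟩
    obtain ⟨m, -, hm⟩ := hζ.eq_pow_of_pow_eq_one (ξ := s • ζ)
      (by rw [← smul_pow', hζ.pow_eq_one, smul_one])
    exact ⟨m, hm.symm⟩
  have hχ0 : ∀ s, χ s ≠ 0 := fun s => div_ne_zero (Units.ne_zero _) (pow_ne_zero _ (Units.ne_zero _))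
  have hχ1 : ∀ s, χ s ^ (p + 1) = 1 := by
    intro s
    obtain ⟨m, hm⟩ := hex s
    have h1 := hψζ s m hm
    rw [hχdef]
    simp only
    rw [div_pow, ← pow_mul, mul_comm p, pow_mul, h1, natCast_pow_p hp, div_self]
    rw [← h1]
    exact pow_ne_zero _ (Units.ne_zero _)
  have hχω : ∃ (s : Γ) (m : ℕ), s • ζ = ζ ^ m ∧ χ s ≠ (m : k) := by
    obtain ⟨s, hs⟩ := hψne
    obtain ⟨m, hm⟩ := hex s
    refine ⟨s, m, hm, fun hcon => hs ?_⟩
    rw [← hψζ s m hm, hχdef] at hcon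
    simp only at hcon
    set u : k := ((ψ s : kˣ) : k) with hu
    have hu0 : u ≠ 0 := Units.ne_zero _
    rw [div_eq_iff (pow_ne_zero _ hu0)] at hcon
    -- `u = u^(p+1) * u^p`
    have h1 : (u ^ 2) ^ p = 1 := by
      have : u * ((u ^ 2) ^ p) = u * 1 := by
        rw [mul_one]
        conv_rhs => rw [hcon]
        ring
      exact mul_left_cancel₀ hu0 this
    have h2 : u ^ 2 = 1 := eq_one_of_pow_p hp h1
    obtain ⟨j, hj⟩ := hp.odd_of_ne_two hp2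
    rw [hj, pow_succ, pow_mul, h2, one_pow, one_mul]
  obtain ⟨hfin, hcard⟩ := kp_card hp hp2 h hπ hζ 𝔅
    (fun f hf => peu_of_add hp h hπ hMo hM hζ f hf.1 hf.2.1) χ hχ0 hχ1 hχω
    (fun f hf => hf.2.2.1) Φ hΦv hΦπ hΦq cΦ hsurj (fun x z => hΦc0 x z) (fun f hf => hf.2.2.2)
  -- conclusion
  let b₀ : 𝔅 := ⟨_, hin hb hbF⟩
  let b₁ : 𝔅 := ⟨_, hin hb' hbF'⟩
  have hb₀ : b₀ ≠ 0 := by
    intro h0
    obtain ⟨t, ht, htne⟩ := hne
    exact htne (congrFun (congrArg Subtype.val h0) ⟨t, ht⟩)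
  have hinj : Function.Injective (fun a : k => a • b₀) := smul_left_injective k hb₀
  obtain ⟨a, ha⟩ := (hinj.bijective_of_nat_card_le hcard).2 b₁
  refine ⟨a, fun t ht => ?_⟩
  have := congrFun (congrArg Subtype.val ha) ⟨t, ht⟩
  exact this.symm

end Fermat.Agent.S56.Font
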