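import Fermat.Agent.S56.Flat.Irr.Str
import Fermat.Agent.S56.Flat.Irr.KTIface
import Fermat.Agent.S56.Loc.Q

/-!
# S56 / Flat / Irr / Coc : the entries of a cocycle on `N = Stab_I(π)`.     Elementary (cocycle identity + `2 × 2` matrices).

`c ∈ Z¹(D_p, ad⁰ rbar)`; `N ≤ IP p` a subgroup with `rbar = 1` on `N`.   `ent g₀ c i j s := (g₀ c(s) g₀⁻¹)_{ij}`, `s ∈ IP p`.
[COC-ADD]  `c (s t) = c s + c t` for `s, t ∈ N`  (`rbar s = 1`).
[COC-CONJ] `σ ∈ D`, `t, σ t σ⁻¹ ∈ I` with `rbar t = 1`: `c (σ t σ⁻¹) = rbar σ * c t * rbar σ⁻¹`.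
   [`c (σ t σ⁻¹) = c σ + σ c t + σ t c(σ⁻¹)`, `t` acts trivially, `c σ + σ c (σ⁻¹) = c 1 = 0`.]
With `IrrStr`: `g₀ rbar s g₀⁻¹ = diag(ψ, ψ^p)`: `ent 0 0 (s t s⁻¹) = ent 0 0 t`, `ent 0 1 (s t s⁻¹) = ψ s / ψ s ^ p * ent 0 1 t`.
`g₀ rbar φ g₀⁻¹ = [[0,x],[y,0]]`, inverse `[[0,1/y],[1/x,0]]`:  `Ad [[h,b],[c',-h]] = [[-h, (x/y) c'],[(y/x) b, h]]`.
-/

set_option autoImplicit false

open ExtCitation

namespace Fermat.Agent.S56

open CFT (levS levAll decomp Z1 B1 Qb)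
open Font MulAction

variable {p : ℕ} [Fact p.Prime] {k : Type} [Field k]

/-- the entries of `g₀ c g₀⁻¹` on inertia -/
def ent (g₀ : (M2 k)ˣ) (c : ↥(decomp (pPrime p)) → sl2 k) (i j : Fin 2) : IP p → k :=
  fun s => ((g₀ : M2 k) * ((c (IP.toD s) : sl2 k) : M2 k) * ((g₀⁻¹ : (M2 k)ˣ) : M2 k)) i j

theorem ent_add (g₀ : (M2 k)ˣ) (c c' : ↥(decomp (pPrime p)) → sl2 k) (i j : Fin 2) (s : IP p) :
    ent g₀ (c + c') i j s = ent g₀ c i j s + ent g₀ c' i j s := by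
  simp [ent, mul_add, add_mul]

theorem ent_smul (g₀ : (M2 k)ˣ) (a : k) (c : ↥(decomp (pPrime p)) → sl2 k) (i j : Fin 2) (s : IP p) :
    ent g₀ (a • c) i j s = a * ent g₀ c i j s := by
  simp [ent]

/-- trace zero -/
theorem ent_one_one (g₀ : (M2 k)ˣ) (c : ↥(decomp (pPrime p)) → sl2 k) (s : IP p) :
    ent g₀ c 1 1 s = - ent g₀ c 0 0 s := by
  have h := Matrix.trace_units_conj g₀ ((c (IP.toD s) : sl2 k) : M2 k)
  rw [(mem_sl2 _).1 (c (IP.toD s)).2, Matrix.trace_fin_two] at h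
  exact eq_neg_of_add_eq_zero_right h

/-- the entries determine the value -/
theorem eq_zero_of_ent (g₀ : (M2 k)ˣ) (c : ↥(decomp (pPrime p)) → sl2 k) (s : IP p)
    (h00 : ent g₀ c 0 0 s = 0) (h01 : ent g₀ c 0 1 s = 0) (h10 : ent g₀ c 1 0 s = 0) :
    c (IP.toD s) = 0 := by
  have h11 := ent_one_one g₀ c s
  rw [h00, neg_zero] at h11
  have hX : (g₀ : M2 k) * ((c (IP.toD s) : sl2 k) : M2 k) * ((g₀⁻¹ : (M2 k)ˣ) : M2 k) = 0 := by
    ext i j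
    fin_cases i <;> fin_cases j
    · exact h00
    · exact h01
    · exact h10
    · exact h11
  have h := congrArg (fun X : M2 k => ((g₀⁻¹ : (M2 k)ˣ) : M2 k) * X * (g₀ : M2 k)) hX
  simp only [mul_zero, zero_mul] at h
  rw [mul_assoc, mul_assoc, Units.inv_mul, mul_one, ← mul_assoc, Units.inv_mul, one_mul] at h
  exact Subtype.ext h

/-- conjugation by an element of `D_p` on inertia -/
noncomputable def conjIP (φ : GQ) (hφ : φ ∈ decomp (pPrime p)) : IP p ≃* IP p where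
  toFun s := ⟨φ * (s : GQ) * φ⁻¹, conj_mem_inertia (Fact.out : p.Prime) liesOver_pP hφ s.2⟩
  invFun s := ⟨φ⁻¹ * (s : GQ) * φ, by
    have := conj_mem_inertia (Fact.out : p.Prime) liesOver_pP
      ((decomp (pPrime p)).inv_mem hφ) s.2
    rwa [inv_inv] at this⟩
  left_inv s := by ext1; simp [mul_assoc]
  right_inv s := by ext1; simp [mul_assoc]
  map_mul' s t := by ext1; simp [mul_assoc]

@[simp] theorem coe_conjIP (φ : GQ) (hφ : φ ∈ decomp (pPrime p)) (s : IP p) :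
    ((conjIP φ hφ s : IP p) : GQ) = φ * (s : GQ) * φ⁻¹ := rfl

theorem conjIP_smul (φ : GQ) (hφ : φ ∈ decomp (pPrime p)) (s : IP p) (x : Qb) :
    conjIP φ hφ s • (φ x) = φ (s • x) := by
  show (φ * (s : GQ) * φ⁻¹) (φ x) = φ ((s : GQ) x)
  rw [AlgEquiv.mul_apply, AlgEquiv.mul_apply, AlgEquiv.aut_inv, AlgEquiv.symm_apply_apply]

theorem rbar_inv_eq_one {rbar : GQ →* M2 k} {t : GQ} (ht : rbar t = 1) : rbar t⁻¹ = 1 := by
  have h := map_mul rbar t t⁻¹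
  rwa [mul_inv_cancel, map_one, ht, one_mul, eq_comm] at h

theorem adRep_eq_one_of_trivial {rbar : GQ →* M2 k} {t : GQ} (ht : rbar t = 1) :
    adRep rbar t = 1 := by
  ext m : 2
  rw [adRep_apply_coe, ht, rbar_inv_eq_one ht, one_mul, mul_one]
  rfl

/-- [COC-ADD] -/
theorem coc_add_of_trivial {rbar : GQ →* M2 k} {c : ↥(decomp (pPrime p)) → sl2 k}
    (hc : c ∈ Z1loc (adRep rbar) (pPrime p)) (s t : IP p) (hs : rbar (s : GQ) = 1) :
    c (IP.toD (s * t)) = c (IP.toD s) + c (IP.toD t) := by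
  rw [IP.toD_mul, LocQ.coc_mul hc, IP.coe_toD, adRep_eq_one_of_trivial hs]
  rfl

/-- [COC-CONJ] -/
theorem coc_conj_of_trivial {rbar : GQ →* M2 k} {c : ↥(decomp (pPrime p)) → sl2 k}
    (hc : c ∈ Z1loc (adRep rbar) (pPrime p)) (σ : GQ) (hσ : σ ∈ decomp (pPrime p)) (t : IP p)
    (ht : rbar (t : GQ) = 1) :
    ((c (IP.toD (conjIP σ hσ t)) : sl2 k) : M2 k) =
      rbar σ * ((c (IP.toD t) : sl2 k) : M2 k) * rbar σ⁻¹ := by
  set σD : ↥(decomp (pPrime p)) := ⟨σ, hσ⟩ with hσD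
  have e : IP.toD (conjIP σ hσ t) = σD * IP.toD t * σD⁻¹ := Subtype.ext rfl
  have h1 := LocQ.coc_mul hc (σD * IP.toD t) σD⁻¹
  have h2 := LocQ.coc_mul hc σD (IP.toD t)
  have h3 := LocQ.coc_mul hc σD σD⁻¹
  rw [mul_inv_cancel, LocQ.coc_one hc] at h3
  have h4 : adRep rbar ((σD * IP.toD t : ↥(decomp (pPrime p))) : GQ) = adRep rbar σ := by
    rw [Subgroup.coe_mul, map_mul, IP.coe_toD, adRep_eq_one_of_trivial ht, mul_one]
  have h5 : c (IP.toD (conjIP σ hσ t)) = adRep rbar σ (c (IP.toD t)) := by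
    rw [e, h1, h2, h4, add_right_comm]
    change c σD + adRep rbar σ (c σD⁻¹) + adRep rbar σ (c (IP.toD t)) = _
    rw [← h3, zero_add]
  rw [h5, adRep_apply_coe]

/-- the matrix of entries -/
theorem ent_conj_aux {rbar : GQ →* M2 k} {c : ↥(decomp (pPrime p)) → sl2 k} (g₀ : (M2 k)ˣ)
    (hc : c ∈ Z1loc (adRep rbar) (pPrime p)) (σ : GQ) (hσ : σ ∈ decomp (pPrime p)) (t : IP p)
    (ht : rbar (t : GQ) = 1) (i j : Fin 2) :
    ent g₀ c i j (conjIP σ hσ t) =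
      (((g₀ : M2 k) * rbar σ * ((g₀⁻¹ : (M2 k)ˣ) : M2 k)) *
        ((g₀ : M2 k) * ((c (IP.toD t) : sl2 k) : M2 k) * ((g₀⁻¹ : (M2 k)ˣ) : M2 k)) *
        ((g₀ : M2 k) * rbar σ⁻¹ * ((g₀⁻¹ : (M2 k)ˣ) : M2 k))) i j := by
  rw [ent, coc_conj_of_trivial hc σ hσ t ht]
  refine congrFun (congrFun ?_ i) j
  have h : ((g₀⁻¹ : (M2 k)ˣ) : M2 k) * (g₀ : M2 k) = 1 := Units.inv_mul g₀
  calc (g₀ : M2 k) * (rbar σ * ((c (IP.toD t) : sl2 k) : M2 k) * rbar σ⁻¹) *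
        ((g₀⁻¹ : (M2 k)ˣ) : M2 k)
      = (g₀ : M2 k) * rbar σ * 1 * ((c (IP.toD t) : sl2 k) : M2 k) * 1 * rbar σ⁻¹ *
        ((g₀⁻¹ : (M2 k)ˣ) : M2 k) := by simp only [mul_one, mul_assoc]
    _ = _ := by rw [← h]; simp only [mul_assoc]

theorem ent_conj_inertia {rbar : GQ →* M2 k} {g₀ : (M2 k)ˣ} {ψ : IP p →* kˣ} {φ : GQ} {x y : k}
    {c : ↥(decomp (pPrime p)) → sl2 k} (hS : IrrStr p rbar g₀ ψ φ x y)
    (hc : c ∈ Z1loc (adRep rbar) (pPrime p)) (s t : IP p) (ht : rbar (t : GQ) = 1) :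
    ent g₀ c 0 0 (s * t * s⁻¹) = ent g₀ c 0 0 t ∧
      ent g₀ c 0 1 (s * t * s⁻¹) = ((ψ s : kˣ) : k) / ((ψ s : kˣ) : k) ^ p * ent g₀ c 0 1 t := by
  have e : s * t * s⁻¹ = conjIP (s : GQ) (inert_le_decomp (pPrime p) s.2) t := Subtype.ext rfl
  have d1 := hS.diag s
  have d2 := hS.diag s⁻¹
  rw [Subgroup.coe_inv, map_inv ψ, Units.val_inv_eq_inv_val] at d2
  have hψ : ((ψ s : kˣ) : k) ≠ 0 := (ψ s).ne_zero
  rw [e, ent_conj_aux g₀ hc _ _ t ht, ent_conj_aux g₀ hc _ _ t ht, d1, d2, inv_pow]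
  unfold ent
  generalize (g₀ : M2 k) * ((c (IP.toD t) : sl2 k) : M2 k) * ((g₀⁻¹ : (M2 k)ˣ) : M2 k) = X
  constructor
  · simp only [Matrix.mul_apply, Fin.sum_univ_two, Matrix.of_apply, Matrix.cons_val',
      Matrix.cons_val_zero, Matrix.cons_val_one, Matrix.cons_val_fin_one]
    field_simp
    ring
  · simp only [Matrix.mul_apply, Fin.sum_univ_two, Matrix.of_apply, Matrix.cons_val',
      Matrix.cons_val_zero, Matrix.cons_val_one, Matrix.cons_val_fin_one]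
    field_simp
    ring

section

variable {rbar : GQ →* M2 k} {g₀ : (M2 k)ˣ} {ψ : IP p →* kˣ} {φ : GQ} {x y : k}
  {c : ↥(decomp (pPrime p)) → sl2 k} {π : Qb} {M : Subgroup (IP p)}

/-- `ent 0 0` is good for the trivial character -/
theorem isGoodHom_ent_zero_zero (hS : IrrStr p rbar g₀ ψ φ x y)
    (hc : c ∈ Z1loc (adRep rbar) (pPrime p))
    (hN : ∀ s ∈ stabilizer (IP p) π, rbar (s : GQ) = 1)
    (hM : ∀ s ∈ M, c (IP.toD s) = 0) :
    IsGoodHom π M (fun _ => (1 : k)) (ent g₀ c 0 0) := by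
  refine ⟨fun s hs t _ => ?_, fun t ht => ?_, fun s t ht => ?_⟩
  · simp only [ent, coc_add_of_trivial hc s t (hN s hs), Submodule.coe_add, mul_add, add_mul,
      Matrix.add_apply]
  · simp only [ent, hM t ht.2, Submodule.coe_zero, mul_zero, zero_mul, Matrix.zero_apply]
  · rw [(ent_conj_inertia hS hc s t (hN t ht)).1, one_mul]

/-- `ent 0 1` is good for `ψ^(1-p)` -/
theorem isGoodHom_ent_zero_one (hS : IrrStr p rbar g₀ ψ φ x y)
    (hc : c ∈ Z1loc (adRep rbar) (pPrime p))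
    (hN : ∀ s ∈ stabilizer (IP p) π, rbar (s : GQ) = 1)
    (hM : ∀ s ∈ M, c (IP.toD s) = 0) :
    IsGoodHom π M (fun s => ((ψ s : kˣ) : k) / ((ψ s : kˣ) : k) ^ p) (ent g₀ c 0 1) := by
  refine ⟨fun s hs t _ => ?_, fun t ht => ?_, fun s t ht => ?_⟩
  · simp only [ent, coc_add_of_trivial hc s t (hN s hs), Submodule.coe_add, mul_add, add_mul,
      Matrix.add_apply]
  · simp only [ent, hM t ht.2, Submodule.coe_zero, mul_zero, zero_mul, Matrix.zero_apply]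
  · exact (ent_conj_inertia hS hc s t (hN t ht)).2

/-- Frobenius exchanges the two off-diagonal entries -/
theorem ent_conj_frob (hS : IrrStr p rbar g₀ ψ φ x y) (hφ : φ ∈ decomp (pPrime p))
    (hc : c ∈ Z1loc (adRep rbar) (pPrime p)) (t : IP p) (ht : rbar (t : GQ) = 1) :
    ent g₀ c 0 1 (conjIP φ hφ t) = x / y * ent g₀ c 1 0 t ∧
      ent g₀ c 1 0 (conjIP φ hφ t) = y / x * ent g₀ c 0 1 t := by
  have hx := hS.x_ne
  have hy := hS.y_ne
  set B : M2 k := (g₀ : M2 k) * rbar φ⁻¹ * ((g₀⁻¹ : (M2 k)ˣ) : M2 k) with hB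
  have hAB : !![0, x; y, 0] * B = 1 := by
    rw [← hS.anti, hB]
    have h : ((g₀⁻¹ : (M2 k)ˣ) : M2 k) * (g₀ : M2 k) = 1 := Units.inv_mul g₀
    calc (g₀ : M2 k) * rbar φ * ((g₀⁻¹ : (M2 k)ˣ) : M2 k) *
          ((g₀ : M2 k) * rbar φ⁻¹ * ((g₀⁻¹ : (M2 k)ˣ) : M2 k))
        = (g₀ : M2 k) * rbar φ * (((g₀⁻¹ : (M2 k)ˣ) : M2 k) * (g₀ : M2 k)) * rbar φ⁻¹ *
          ((g₀⁻¹ : (M2 k)ˣ) : M2 k) := by simp only [mul_assoc]
      _ = (g₀ : M2 k) * (rbar φ * rbar φ⁻¹) * ((g₀⁻¹ : (M2 k)ˣ) : M2 k) := by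
          rw [h]; simp only [mul_one, mul_assoc]
      _ = 1 := by rw [← map_mul, mul_inv_cancel, map_one, mul_one, Units.mul_inv]
  have b10 : x * B 1 0 = 1 := by
    have := congrFun (congrFun hAB 0) 0
    simpa [Matrix.mul_apply, Fin.sum_univ_two] using this
  have b11 : x * B 1 1 = 0 := by
    have := congrFun (congrFun hAB 0) 1
    simpa [Matrix.mul_apply, Fin.sum_univ_two] using this
  have b00 : y * B 0 0 = 0 := by
    have := congrFun (congrFun hAB 1) 0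
    simpa [Matrix.mul_apply, Fin.sum_univ_two] using this
  have b01 : y * B 0 1 = 1 := by
    have := congrFun (congrFun hAB 1) 1
    simpa [Matrix.mul_apply, Fin.sum_univ_two] using this
  have c10 : B 1 0 = 1 / x := by field_simp; linear_combination b10
  have c01 : B 0 1 = 1 / y := by field_simp; linear_combination b01
  have c11 : B 1 1 = 0 := (mul_eq_zero.1 b11).resolve_left hx
  have c00 : B 0 0 = 0 := (mul_eq_zero.1 b00).resolve_left hy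
  rw [ent_conj_aux g₀ hc φ hφ t ht, ent_conj_aux g₀ hc φ hφ t ht, hS.anti, ← hB]
  unfold ent
  generalize (g₀ : M2 k) * ((c (IP.toD t) : sl2 k) : M2 k) * ((g₀⁻¹ : (M2 k)ˣ) : M2 k) = X
  constructor
  · simp only [Matrix.mul_apply, Fin.sum_univ_two, Matrix.of_apply, Matrix.cons_val',
      Matrix.cons_val_zero, Matrix.cons_val_one, Matrix.cons_val_fin_one, c01, c11]
    field_simp
    ring
  · simp only [Matrix.mul_apply, Fin.sum_univ_two, Matrix.of_apply, Matrix.cons_val',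
      Matrix.cons_val_zero, Matrix.cons_val_one, Matrix.cons_val_fin_one, c00, c10]
    field_simp
    ring

end

end Fermat.Agent.S56
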