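import Fermat.Agent.S56.Font.KumOK

/-!
# S56 / Flat / Irr / Tame : [LT-TAME] tame extensions of `K₀` are the `K₀(p^(1/e))`.     (LT formalism, Mathlib + `S56/Font/LT/*` + `S56/Font/Root/*`.)

`(Γ, C, v, p)` strictly henselian, `C` algebraically closed.
(R1) `ξ^n = 1`, `p ∤ n`, `v (ξ - 1) < 1` ⟹ `ξ = 1`.   [`n = ∏_{ξ' ≠ 1} (1 - ξ')`, or: `ξ = 1 + z`, `0 = (1+z)^n - 1 = z (n + z (..))`, `v n = 1` (Bezout with `v p < 1`, `v m ≤ 1`), so `z = 0`.]
(R2) `v x ≤ 1` ⟹ `v (g • x - x) < 1`   [`h.res`: `x = y + (x - y)`, `y` fixed, `h.inv`].    Hence (R3): `ξ^n = 1`, `p ∤ n` ⟹ `Fix0 Γ ξ`  [`(g ξ / ξ)^n = 1`, `v (g ξ / ξ - 1) < 1`].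
(R4) `u` with `v u = 1`, `FixBy N u`, `y^n = u`, `p ∤ n` ⟹ `FixBy N y`   [`s y / y` is an `n`-th root of `1` congruent to `1`].
(T1) `N₀` open, `n = N₀.index`, `p ∤ n` ⟹ `∃ π₁, π₁^n = p ∧ Stab π₁ = N₀`.   [`exists_isTot_of_isOpenIn`: `π₀`, `Stab π₀ = N₀`, `v π₀ ^ n = v p`; `u = π₀^n / p`, `y^n = u` (`IsAlgClosed.exists_pow_nat_eq`), `π₁ = π₀ / y`:
     `FixBy N₀ π₁`, so `N₀ ≤ Stab π₁`, and `isTot_of_fixBy` / `eq_of_le_of_index_eq` (`(isTot_of_pow_eq h _).index`) give equality.]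
(T2) `π₁^n = p`: `θ₁ : Γ → C`, `s ↦ s π₁ / π₁` is multiplicative (values are `n`-th roots of unity, fixed by `Γ` (R3)) with `θ₁ s = 1 ↔ s ∈ Stab π₁`.   So if `s^e ∈ Stab π₁` for all `s`: the cyclic group `θ₁(Γ) ⊆ μ_n` of order `n = index` has exponent `∣ e`: `n ∣ e`.
     [finite subgroup of `Cˣ` is cyclic; or: `θ₁` is onto `μ_n` by counting (`index = n = #μ_n`), take `s` with `θ₁ s` primitive.]
(T3) `π^e = p`, `n ∣ e`: `(π^(e/n))^n = p = π₁^n`, so `π^(e/n) = ξ π₁`, `ξ^n = 1`, `ξ` fixed: `Stab π ≤ Stab (π^(e/n)) = Stab π₁`.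
`p ∤ n`: the group `Γ ⧸ N₀` has exponent `∣ e` prime to `p` (Cauchy: `exists_prime_orderOf_dvd_card`).
-/

set_option autoImplicit false

namespace Fermat.Agent.S56.Font

open MulAction

variable {C : Type} [Field C] {Γ₀ : Type} [LinearOrderedCommGroupWithZero Γ₀]
  {Γ : Type} [Group Γ] [MulSemiringAction Γ C] {v : Valuation C Γ₀} {p : ℕ}

/-- (R1) -/
theorem eq_one_of_pow_eq_one_of_val_lt (hp : p.Prime) (hv : v (p : C) < 1) {n : ℕ} (hn : ¬ p ∣ n)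
    {ξ : C} (hξ : ξ ^ n = 1) (h1 : v (ξ - 1) < 1) : ξ = 1 := by
  by_contra hne
  have hsum : ∑ k ∈ Finset.range n, ξ ^ k = 0 := by
    have h2 := mul_geom_sum ξ n
    rw [hξ, sub_self] at h2
    exact (mul_eq_zero.1 h2).resolve_left (sub_ne_zero.2 hne)
  have hξ1 : v ξ ≤ 1 := by
    have e1 : ξ = (ξ - 1) + 1 := by ring
    rw [e1]
    exact (v.map_add _ _).trans (max_le h1.le (by rw [map_one]))
  have hk : ∀ k : ℕ, v (ξ ^ k - 1) < 1 := by
    intro k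
    induction k with
    | zero => simp
    | succ k ih =>
      have e1 : ξ ^ (k + 1) - 1 = ξ ^ k * (ξ - 1) + (ξ ^ k - 1) := by ring
      rw [e1]
      refine lt_of_le_of_lt (v.map_add _ _) (max_lt ?_ ih)
      rw [map_mul, map_pow]
      exact lt_of_le_of_lt (mul_le_of_le_one_left zero_le (pow_le_one' hξ1 k)) h1
  have hn1 : v (n : C) = 1 := comp_val_natCast_eq_one hp hv hn
  have e2 : (n : C) = - ∑ k ∈ Finset.range n, (ξ ^ k - 1) := by
    rw [Finset.sum_sub_distrib, hsum]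
    simp
  have h2 : v (n : C) < 1 := by
    rw [e2, Valuation.map_neg]
    exact Valuation.map_sum_lt v one_ne_zero (fun k _ => hk k)
  exact absurd hn1 h2.ne

/-- (R2) -/
theorem IsSH.val_smul_sub_lt_one (h : IsSH Γ v (p : C)) (g : Γ) {x : C} (hx : v x ≤ 1) :
    v (g • x - x) < 1 := by
  obtain ⟨y, hy, hxy⟩ := h.res x hx
  have e1 : g • x - x = g • (x - y) - (x - y) := by
    rw [smul_sub, hy g]
    ring
  rw [e1]
  exact lt_of_le_of_lt (v.map_sub _ _) (max_lt (by rwa [h.inv]) hxy)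

/-- (R4) -/
theorem IsSH.fixBy_root (hp : p.Prime) (h : IsSH Γ v (p : C)) {n : ℕ} (hn : ¬ p ∣ n)
    {N : Subgroup Γ} {u y : C} (hu : v u = 1) (hfix : FixBy N u) (hy : y ^ n = u) : FixBy N y := by
  intro s hs
  have hn0 : n ≠ 0 := by
    rintro rfl
    exact hn (dvd_zero p)
  have hvy : v y = 1 := by
    rw [← hy, map_pow] at hu
    exact (pow_eq_one_iff.1 hu).resolve_right hn0
  have hy0 : y ≠ 0 := by
    rw [← v.ne_zero_iff, hvy]
    exact one_ne_zero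
  have hu0 : u ≠ 0 := by
    rw [← hy]
    exact pow_ne_zero _ hy0
  have h1 : (s • y / y) ^ n = 1 := by
    rw [div_pow, ← smul_pow', hy, hfix s hs, div_self hu0]
  have h2 : v (s • y / y - 1) < 1 := by
    have e1 : s • y / y - 1 = (s • y - y) / y := by
      field_simp
    rw [e1, map_div₀, hvy, div_one]
    exact h.val_smul_sub_lt_one s hvy.le
  have h3 := eq_one_of_pow_eq_one_of_val_lt hp h.lt_one hn h1 h2
  exact (div_eq_one_iff_eq hy0).1 h3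

/-- (R3) -/
theorem IsSH.fix0_of_pow_eq_one (hp : p.Prime) (h : IsSH Γ v (p : C)) {n : ℕ} (hn : ¬ p ∣ n)
    {ξ : C} (hξ : ξ ^ n = 1) : Fix0 Γ ξ := fun g =>
  h.fixBy_root hp hn (N := ⊤) (map_one v) (Fix0.one.fixBy _) hξ g (Subgroup.mem_top g)

/-- (T1) -/
theorem IsSH.exists_root_unif [IsAlgClosed C] (hp : p.Prime) (h : IsSH Γ v (p : C))
    {N₀ : Subgroup Γ} (hN₀ : IsOpenIn C N₀) (hn : ¬ p ∣ N₀.index) :
    ∃ π₁ : C, π₁ ^ N₀.index = (p : C) ∧ stabilizer Γ π₁ = N₀ := by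
  obtain ⟨hn0, π₀, hπ₀, hstab⟩ := exists_isTot_of_isOpenIn h hN₀
  have hp0 : (p : C) ≠ 0 := h.ne_zero
  have hπ₀0 : π₀ ≠ 0 := ne_zero_of_pow' h hπ₀.pow
  have hfixπ₀ : FixBy N₀ π₀ := by
    rw [← hstab]
    exact fixBy_stabilizer π₀
  obtain ⟨y, hy⟩ := IsAlgClosed.exists_pow_nat_eq (π₀ ^ N₀.index / (p : C)) (Nat.pos_of_ne_zero hn0)
  have hu1 : v (π₀ ^ N₀.index / (p : C)) = 1 := by
    rw [map_div₀, map_pow, hπ₀.pow, div_self ((v.ne_zero_iff).2 hp0)]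
  have hufix : FixBy N₀ (π₀ ^ N₀.index / (p : C)) := by
    rw [div_eq_mul_inv]
    exact (hfixπ₀.pow _).mul ((Fix0.natCast p).fixBy _).inv
  have hyfix : FixBy N₀ y := h.fixBy_root hp hn hu1 hufix hy
  have hπ₁ : (π₀ / y) ^ N₀.index = (p : C) := by
    rw [div_pow, hy]
    field_simp
  have hfix₁ : FixBy N₀ (π₀ / y) := by
    rw [div_eq_mul_inv]
    exact hfixπ₀.mul hyfix.inv
  refine ⟨π₀ / y, hπ₁, ?_⟩
  exact (eq_of_le_of_index_eq (fixBy_iff_le_stabilizer.1 hfix₁) hn0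
    (isTot_of_pow_eq h hπ₁).index.symm).symm

/-- (T2) -/
theorem IsSH.dvd_of_pow_mem_stabilizer (hp : p.Prime) (h : IsSH Γ v (p : C)) {n e : ℕ}
    (hn : ¬ p ∣ n) {π₁ : C} (hπ₁ : π₁ ^ n = (p : C))
    (he : ∀ s : Γ, s ^ e ∈ stabilizer Γ π₁) : n ∣ e := by
  have htot := isTot_of_pow_eq h hπ₁
  have hπ0 : π₁ ≠ 0 := ne_zero_of_pow' h htot.pow
  have hn0 : n ≠ 0 := htot.ne_zero_n h
  have hs0 : ∀ s : Γ, s • π₁ / π₁ ≠ 0 := fun s =>
    div_ne_zero ((smul_ne_zero_iff_ne s).2 hπ0) hπ0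
  have hroot : ∀ s : Γ, (s • π₁ / π₁) ^ n = 1 := by
    intro s
    rw [div_pow, ← smul_pow', hπ₁, Fix0.natCast p s, div_self h.ne_zero]
  have hfix : ∀ s : Γ, Fix0 Γ (s • π₁ / π₁) := fun s => h.fix0_of_pow_eq_one hp hn (hroot s)
  let θ : Γ →* Cˣ :=
    { toFun := fun s => Units.mk0 (s • π₁ / π₁) (hs0 s)
      map_one' := by
        apply Units.ext
        simp [div_self hπ0]
      map_mul' := by
        intro s t
        apply Units.ext
        simp only [Units.val_mk0, Units.val_mul]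
        have e1 : t • π₁ = (t • π₁ / π₁) * π₁ := by
          field_simp
        rw [mul_smul]
        conv_lhs => rw [e1, smul_mul', hfix t s]
        field_simp }
  have hker : θ.ker = stabilizer Γ π₁ := by
    ext s
    rw [MonoidHom.mem_ker, mem_stabilizer_iff, Units.ext_iff]
    change s • π₁ / π₁ = 1 ↔ _
    exact div_eq_one_iff_eq hπ0
  have hcard : Nat.card θ.range = n := by
    rw [← Subgroup.index_ker, hker, htot.index]
  have hfin : Finite θ.range := Nat.finite_of_card_ne_zero (by rw [hcard]; exact hn0)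
  rw [← hcard, ← IsCyclic.exponent_eq_card]
  refine Monoid.exponent_dvd_of_forall_pow_eq_one ?_
  rintro ⟨_, s, rfl⟩
  apply Subtype.ext
  have h1 : s ^ e ∈ θ.ker := by
    rw [hker]
    exact he s
  rw [MonoidHom.mem_ker, map_pow] at h1
  simpa only [SubmonoidClass.coe_pow, OneMemClass.coe_one] using h1

/-- (T3) -/
theorem IsSH.stabilizer_le_of_dvd (hp : p.Prime) (h : IsSH Γ v (p : C)) {n e : ℕ} (hn : ¬ p ∣ n)
    (hne : n ∣ e) {π₁ π : C} (hπ₁ : π₁ ^ n = (p : C)) (hπ : π ^ e = (p : C)) :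
    stabilizer Γ π ≤ stabilizer Γ π₁ := by
  obtain ⟨k, rfl⟩ := hne
  have hπ0 : π₁ ≠ 0 := ne_zero_of_pow' h (isTot_of_pow_eq h hπ₁).pow
  have hπ0' : π ≠ 0 := ne_zero_of_pow' h (isTot_of_pow_eq h hπ).pow
  have hroot : (π₁ / π ^ k) ^ n = 1 := by
    rw [div_pow, hπ₁, ← pow_mul, mul_comm k n, hπ, div_self h.ne_zero]
  have hfix := h.fix0_of_pow_eq_one hp hn hroot
  intro s hs
  rw [mem_stabilizer_iff] at hs ⊢
  have e1 : π₁ = (π₁ / π ^ k) * π ^ k := by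
    field_simp
  rw [e1, smul_mul', hfix s, smul_pow', hs]

/-- **[LT-TAME]** a homomorphism with open kernel and exponent `e` prime to `p` is trivial on `Stab (p^(1/e))` -/
theorem IsSH.stabilizer_le_ker [IsAlgClosed C] (hp : p.Prime) (h : IsSH Γ v (p : C))
    {Mo : Type} [Monoid Mo] (f : Γ →* Mo) (hopen : IsOpenIn C f.ker) {e : ℕ} (he : ¬ p ∣ e)
    (hf : ∀ s, f s ^ e = 1) {π : C} (hπ : π ^ e = (p : C)) : stabilizer Γ π ≤ f.ker := by
  have hn0 : f.ker.index ≠ 0 := (exists_isTot_of_isOpenIn h hopen).1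
  have hmem : ∀ s : Γ, s ^ e ∈ f.ker := fun s => by
    rw [MonoidHom.mem_ker, map_pow, hf]
  have hn : ¬ p ∣ f.ker.index := by
    intro hdvd
    have : Fact p.Prime := ⟨hp⟩
    have : Finite (Γ ⧸ f.ker) := Nat.finite_of_card_ne_zero hn0
    obtain ⟨x, hx⟩ := exists_prime_orderOf_dvd_card' (G := Γ ⧸ f.ker) p hdvd
    obtain ⟨s, rfl⟩ := QuotientGroup.mk_surjective x
    apply he
    rw [← hx]
    apply orderOf_dvd_of_pow_eq_one
    rw [← QuotientGroup.mk_pow]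
    exact (QuotientGroup.eq_one_iff _).2 (hmem s)
  obtain ⟨π₁, hπ₁, hstab⟩ := h.exists_root_unif hp hopen hn
  have hdvd := h.dvd_of_pow_mem_stabilizer hp hn hπ₁ (fun s => by rw [hstab]; exact hmem s)
  rw [← hstab]
  exact h.stabilizer_le_of_dvd hp hn hdvd hπ₁ hπ

end Fermat.Agent.S56.Font
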