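import Fermat.Agent.S56.Flat.Irr.Coc
import Fermat.Agent.S56.Flat.Irr.Tame
import Fermat.Agent.S56.TW.Hyp
import Fermat.Agent.S14.PartA.Cyclo

/-!
# S56 / Flat / Irr / Leaf : small leaves of the irreducible case (instantiation of the LT formalism at `I_p`, averaging, counting).
-/

set_option autoImplicit false

open ExtCitation

namespace Fermat.Agent.S56

open CFT (levS levAll decomp Z1 B1 Qb)
open Font MulAction

variable {p : ℕ} [Fact p.Prime] {k : Type} [Field k]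

/-- [OPEN-KER] `hcont` gives `L` finite over `ℚ`; `T` = a finite generating set (a `ℚ`-basis of `L`). -/
theorem isOpenIn_ker_rbar (rbar : GQ →* M2 k) (hcont : GaloisFactorsThroughFiniteLevel rbar) :
    IsOpenIn Qb (rbar.comp (inert (pPrime p)).subtype).ker := by
  obtain ⟨L, hL, h⟩ := hcont
  classical
  let b := Module.finBasis ℚ L
  refine ⟨Finset.univ.image (fun i => ((b i : L) : Qb)), fun g hg => ?_⟩
  rw [MonoidHom.mem_ker]
  change rbar (g : GQ) = 1
  apply h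
  have key : ((g : GQ).toLinearMap ∘ₗ L.val.toLinearMap : L →ₗ[ℚ] Qb) = L.val.toLinearMap := by
    apply b.ext
    intro i
    exact hg _ (Finset.mem_image_of_mem _ (Finset.mem_univ i))
  intro x hx
  exact LinearMap.congr_fun key ⟨x, hx⟩

/-- [SMOOTH] -/
theorem adRep_smooth_levAll (rbar : GQ →* M2 k) (hcont : GaloisFactorsThroughFiniteLevel rbar) :
    CFT.IsSmooth levAll (adRep rbar) := by
  obtain ⟨L, hL, h⟩ := hcont
  obtain ⟨U, hU, hle⟩ := CFT.exists_levAll_le L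
  intro w
  refine ⟨U, hU, fun s hs => ?_⟩
  have h1 : ∀ s ∈ U, rbar s = 1 := fun s hs => h s fun x hx =>
    (IntermediateField.mem_fixingSubgroup_iff _ _).1 (hle hs) x hx
  apply Subtype.ext
  rw [adRep_apply_coe, h1 s hs, h1 s⁻¹ (U.inv_mem hs), one_mul, mul_one]

/-- [CHI-ZETA] `cycloChar` is `modularCyclotomicCharacter`: `s ζ = ζ ^ (cycloChar p s).val`; `ζ^n = ζ^m ↔ n ≡ m mod p`. -/
theorem chiK_eq_natCast [CharP k p] {ζ : Qb} (hζ : IsPrimitiveRoot ζ p) (s : GQ) (n : ℕ)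
    (h : s ζ = ζ ^ n) : ((chiK p k s : kˣ) : k) = (n : k) := by
  have h1 : ((n : ℕ) : ZMod p) = ((cycloChar p s : (ZMod p)ˣ) : ZMod p) :=
    S14.PartA.natCast_eq_cycloChar hζ h
  change ZMod.castHom (dvd_refl p) k (cycloChar p s : ZMod p) = _
  rw [← h1, map_natCast]

/-- [FROB-VAL] (`Bridge.valuation_apply_of_mem_decomposition`, `tameP_frob`) -/
theorem frob_data {φ : GQ} (hφ : (primeLocalPlace (pPrime p)).IsFrobeniusAt φ p) :
    φ ∈ decomp (pPrime p) ∧ (∀ x : Qb, vP p (φ x) = vP p x) ∧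
      ∀ x : Qb, vP p x ≤ 1 → vP p (φ x - x ^ p) < 1 :=
  ⟨hφ.mem_decompositionSubgroup,
    fun x => Bridge.valuation_apply_of_mem_decomposition hφ.mem_decompositionSubgroup x,
    fun _ hx => tameP_frob hφ hx⟩

/-- [CF-STAB] `φ⁻¹ π = ξ π`, `ξ^e = 1`, `ξ` is fixed by inertia (`IsSH.fix0_of_pow_eq_one`); so `t` fixes `φ⁻¹ π` and `φ t φ⁻¹` fixes `π`. -/
theorem conjIP_mem_stabilizer {φ : GQ} (hφ : φ ∈ decomp (pPrime p)) {π : Qb} {e : ℕ} (he : ¬ p ∣ e)
    (hπ : π ^ e = ((p : ℕ) : Qb)) {t : IP p} (ht : t ∈ stabilizer (IP p) π) :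
    conjIP φ hφ t ∈ stabilizer (IP p) π := by
  have hp0 : ((p : ℕ) : Qb) ≠ 0 := by exact_mod_cast (Fact.out : p.Prime).ne_zero
  have hπ0 : π ≠ 0 := by
    rintro rfl
    have he0 : e ≠ 0 := by
      rintro rfl
      exact he (dvd_zero p)
    rw [zero_pow he0] at hπ
    exact hp0 hπ.symm
  rw [mem_stabilizer_iff] at ht ⊢
  -- ξ = φ⁻¹ π / π
  set ξ : Qb := φ⁻¹ π / π with hξ
  have hξe : ξ ^ e = 1 := by
    rw [hξ, div_pow, ← map_pow, hπ, map_natCast, div_self hp0]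
  have hfix : Fix0 (IP p) ξ := isSH_IP.fix0_of_pow_eq_one (Fact.out : p.Prime) he hξe
  have h1 : φ⁻¹ π = ξ * π := by
    rw [hξ, div_mul_cancel₀ _ hπ0]
  have h2 : t • (φ⁻¹ π) = φ⁻¹ π := by
    rw [h1, smul_mul', hfix t, ht]
  have h3 := conjIP_smul φ hφ t (φ⁻¹ π)
  rw [h2] at h3
  have h4 : φ (φ⁻¹ π) = π := by
    rw [← AlgEquiv.mul_apply, mul_inv_cancel, AlgEquiv.one_apply]
  rwa [h4] at h3

/-- [KER] averaging.  `N ≤ I` of finite index `n`, `n ≠ 0` in `k`, `c = 0` on `N`: `c (g s) = c g` for `s ∈ N`, so `c` is a function on `I ⧸ N`;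
`w := - n⁻¹ ∑_{g ∈ I ⧸ N} c g`; `σ w - w = - n⁻¹ ∑ (c (σ g) - c σ - c g) = c σ`. -/
theorem mem_Lur_of_zero_on {W : Type} [AddCommGroup W] [Module k W] (ρ : Representation k GQ W)
    {c : ↥(decomp (pPrime p)) → W} (hc : c ∈ Z1loc ρ (pPrime p)) (N : Subgroup (IP p))
    (hidx : ((N.index : ℕ) : k) ≠ 0) (h0 : ∀ s ∈ N, c (IP.toD s) = 0) : c ∈ Lur ρ (pPrime p) := by
  classical
  have hcoc := IsCocLoc.of_mem hc
  have hidx0 : N.index ≠ 0 := by
    intro h
    rw [h, Nat.cast_zero] at hidx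
    exact hidx rfl
  have hFI : N.FiniteIndex := ⟨hidx0⟩
  have hfin : Finite (IP p ⧸ N) := Subgroup.finite_quotient_of_finiteIndex
  have := Fintype.ofFinite (IP p ⧸ N)
  have hmul : ∀ g h : IP p, c (IP.toD (g * h)) = c (IP.toD g) + ρ (g : GQ) (c (IP.toD h)) :=
    fun g h => hcoc (IP.toD g) (IP.toD h)
  -- the function on the quotient
  let cb : IP p ⧸ N → W := fun q => Quotient.liftOn' q (fun g => c (IP.toD g)) (by
    intro a b hab
    have h1 : a⁻¹ * b ∈ N := QuotientGroup.leftRel_apply.1 hab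
    have h2 := hmul a (a⁻¹ * b)
    rw [mul_inv_cancel_left, h0 _ h1, map_zero, add_zero] at h2
    exact h2.symm)
  have hcb : ∀ g : IP p, cb (QuotientGroup.mk g) = c (IP.toD g) := fun g => rfl
  have hact : ∀ (σ : IP p) (q : IP p ⧸ N), ρ (σ : GQ) (cb q) = cb (σ • q) - c (IP.toD σ) := by
    intro σ q
    induction q using QuotientGroup.induction_on with
    | H g =>
      have : σ • (QuotientGroup.mk g : IP p ⧸ N) = QuotientGroup.mk (σ * g) := rfl
      rw [this, hcb, hcb, hmul]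
      abel
  refine ⟨hc, - ((N.index : ℕ) : k)⁻¹ • ∑ q : IP p ⧸ N, cb q, fun σ hσ => ?_⟩
  have hσ' : σ = IP.toD ⟨(σ : GQ), hσ⟩ := rfl
  set s : IP p := ⟨(σ : GQ), hσ⟩ with hs
  have hsum : ∑ q : IP p ⧸ N, ρ (s : GQ) (cb q) =
      ∑ q : IP p ⧸ N, cb q - ((N.index : ℕ) : k) • c (IP.toD s) := by
    simp only [hact]
    rw [Finset.sum_sub_distrib, Finset.sum_const, Finset.card_univ,
      ← Nat.card_eq_fintype_card, ← Subgroup.index_eq_card, Nat.cast_smul_eq_nsmul]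
    congr 1
    exact Equiv.sum_comp (MulAction.toPerm s) cb
  change c σ = ρ (s : GQ) _ - _
  rw [map_smul, map_sum, hsum, smul_sub, smul_smul, neg_mul, inv_mul_cancel₀ hidx, hσ']
  simp

/-- [CARD-LINE] -/
theorem card_le_of_line [Finite k] {E : Type} [AddCommGroup E] [Module k E] (L L' : Submodule k E)
    [Finite ↥L'] (c₀ : E) (h : ∀ c ∈ L, ∃ t : k, c - t • c₀ ∈ L') :
    Finite ↥L ∧ Nat.card ↥L ≤ Nat.card k * Nat.card ↥L' := by
  classical
  choose! t ht using h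
  let f : ↥L → k × ↥L' := fun c => (t c, ⟨(c : E) - t c • c₀, ht c c.2⟩)
  have hf : Function.Injective f := by
    intro a b hab
    have h1 : t a = t b := congrArg Prod.fst hab
    have h2 : (a : E) - t a • c₀ = (b : E) - t b • c₀ := congrArg (fun z => ((z.2 : ↥L') : E)) hab
    rw [h1] at h2
    exact Subtype.ext (sub_left_injective h2)
  have hfin : Finite ↥L := Finite.of_injective f hf
  refine ⟨hfin, ?_⟩
  rw [← Nat.card_prod]
  exact Nat.card_le_card_of_injective f hf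

end Fermat.Agent.S56
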