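import Fermat.Agent.S56.Flat.Irr.Leaf

/-!
# S56 / Flat / Irr / Main : [FLAT-TAN] when `rbar|_{D_p}` has no stable line.  Assembly.

`π^(p²-1) = p`, `N = Stab_I(π)`; `rbar = 1` on `N` (LT-TAME).  `L = Lfl p rbar`.  For `c ∈ L`: `g₀ c g₀⁻¹ |_N = [[h, b],[c', -h]]`;  `h = 0` ([KT-H]);
`c' t = (y/x) b (φ t φ⁻¹)`;  the `b`'s form a `k`-line ([KT-B]).   So `L = L₀ + k c₀`, `L₀ = {c ∈ L | c|_N = 0} ⊆ Lur`, `#Lur ≤ #k³`.
-/

set_option autoImplicit false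
set_option linter.unusedSectionVars false

open ExtCitation Polynomial

namespace Fermat.Agent.S56

open CFT (levS levAll decomp Z1 B1 Qb)
open Font MulAction

variable {p : ℕ} [Fact p.Prime] {k : Type} [Field k] [Finite k] [CharP k p]

theorem not_dvd_sq_sub_one : ¬ p ∣ p ^ 2 - 1 := by
  have hp : p.Prime := Fact.out
  intro h
  have h1 : p ∣ p ^ 2 := dvd_pow_self p two_ne_zero
  have h2 : 1 ≤ p ^ 2 := Nat.one_le_pow _ _ hp.pos
  have h3 : p ∣ p ^ 2 - (p ^ 2 - 1) := Nat.dvd_sub h1 h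
  have h4 : p ^ 2 - (p ^ 2 - 1) = 1 := by omega
  rw [h4] at h3
  exact hp.one_lt.ne' (Nat.dvd_one.1 h3)

/-- `rbar` is trivial on `Stab_I(π)` -/
theorem rbar_eq_one_of_mem_stabilizer {rbar : GQ →* M2 k}
    (hcont : GaloisFactorsThroughFiniteLevel rbar) {g₀ : (M2 k)ˣ} {ψ : IP p →* kˣ} {φ : GQ} {x y : k}
    (hS : IrrStr p rbar g₀ ψ φ x y) {π : Qb} (hπ : π ^ (p ^ 2 - 1) = ((p : ℕ) : Qb)) :
    ∀ s ∈ stabilizer (IP p) π, rbar (s : GQ) = 1 := by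
  have hpow : ∀ s : IP p, (rbar.comp (inert (pPrime p)).subtype) s ^ (p ^ 2 - 1) = 1 := by
    intro s
    have h1 : ∀ n : ℕ, (g₀ : M2 k) * rbar (s : GQ) ^ n * ((g₀⁻¹ : (M2 k)ˣ) : M2 k) =
        !![((ψ s : kˣ) : k) ^ n, 0; 0, (((ψ s : kˣ) : k) ^ p) ^ n] := by
      intro n
      induction n with
      | zero =>
        rw [pow_zero, mul_one, Units.mul_inv]
        ext i j; fin_cases i <;> fin_cases j <;> simp
      | succ n ih =>
        have e : (g₀ : M2 k) * rbar (s : GQ) ^ (n + 1) * ((g₀⁻¹ : (M2 k)ˣ) : M2 k) =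
            ((g₀ : M2 k) * rbar (s : GQ) ^ n * ((g₀⁻¹ : (M2 k)ˣ) : M2 k)) *
              ((g₀ : M2 k) * rbar (s : GQ) * ((g₀⁻¹ : (M2 k)ˣ) : M2 k)) := by
          have e0 : ((g₀⁻¹ : (M2 k)ˣ) : M2 k) * (g₀ : M2 k) = 1 := Units.inv_mul g₀
          calc _ = (g₀ : M2 k) * rbar (s : GQ) ^ n * 1 * rbar (s : GQ) *
                ((g₀⁻¹ : (M2 k)ˣ) : M2 k) := by rw [pow_succ, mul_one]; simp only [mul_assoc]
            _ = _ := by rw [← e0]; simp only [mul_assoc]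
        rw [e, ih, hS.diag s]
        ext i j; fin_cases i <;> fin_cases j <;> simp [Matrix.mul_apply, Fin.sum_univ_two, pow_succ]
    have h2 : ((ψ s : kˣ) : k) ^ (p ^ 2 - 1) = 1 := by
      have := congrArg (fun u : kˣ => (u : k)) (hS.pow s)
      simpa using this
    have h3 := h1 (p ^ 2 - 1)
    rw [← pow_mul, mul_comm p, pow_mul, h2, one_pow] at h3
    have h4 : (g₀ : M2 k) * rbar (s : GQ) ^ (p ^ 2 - 1) * ((g₀⁻¹ : (M2 k)ˣ) : M2 k) = 1 := by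
      rw [h3]; ext i j; fin_cases i <;> fin_cases j <;> simp
    have h5 : rbar (s : GQ) ^ (p ^ 2 - 1) =
        ((g₀⁻¹ : (M2 k)ˣ) : M2 k) * ((g₀ : M2 k) * rbar (s : GQ) ^ (p ^ 2 - 1) *
          ((g₀⁻¹ : (M2 k)ˣ) : M2 k)) * (g₀ : M2 k) := by
      simp only [mul_assoc, Units.inv_mul, mul_one]
      rw [← mul_assoc, Units.inv_mul, one_mul]
    show rbar (s : GQ) ^ (p ^ 2 - 1) = 1
    rw [h5, h4, mul_one, Units.inv_mul]
  have h := IsSH.stabilizer_le_ker (Fact.out : p.Prime) (isSH_IP (p := p))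
    (rbar.comp (inert (pPrime p)).subtype) (isOpenIn_ker_rbar rbar hcont) not_dvd_sq_sub_one hpow hπ
  intro s hs
  exact h hs

/-- `ψ = 1` on `Stab_I(π)` -/
theorem IrrStr.psi_eq_one {rbar : GQ →* M2 k} {g₀ : (M2 k)ˣ} {ψ : IP p →* kˣ} {φ : GQ} {x y : k}
    (hS : IrrStr p rbar g₀ ψ φ x y) {s : IP p} (hs : rbar (s : GQ) = 1) : ψ s = 1 := by
  have h := hS.diag s
  rw [hs, mul_one, Units.mul_inv] at h
  have h00 := congrFun (congrFun h 0) 0
  simp at h00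
  exact Units.ext h00.symm

/-- `ψ^(p+1)` is the cyclotomic character -/
theorem IrrStr.psi_pow {rbar : GQ →* M2 k} {g₀ : (M2 k)ˣ} {ψ : IP p →* kˣ} {φ : GQ} {x y : k}
    (hS : IrrStr p rbar g₀ ψ φ x y) (hdet : ∀ σ, (rbar σ).det = (chiK p k σ : k)) (s : IP p) :
    ((ψ s : kˣ) : k) ^ (p + 1) = (chiK p k (s : GQ) : k) := by
  have h := congrArg Matrix.det (hS.diag s)
  rw [Matrix.det_mul, Matrix.det_mul, mul_right_comm, ← Matrix.det_mul, Units.mul_inv,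
    Matrix.det_one, one_mul, hdet, Matrix.det_fin_two_of] at h
  rw [h]
  ring

/-- the key step: modulo cocycles vanishing on `N = Stab_I(π)`, `Lfl` is a line -/
theorem exists_smul_sub_zero_on (hp2 : p ≠ 2) {rbar : GQ →* M2 k}
    (hcont : GaloisFactorsThroughFiniteLevel rbar)
    (hdet : ∀ σ, (rbar σ).det = (chiK p k σ : k)) {g₀ : (M2 k)ˣ} {ψ : IP p →* kˣ} {φ : GQ} {x y : k}
    (hS : IrrStr p rbar g₀ ψ φ x y) {π : Qb} (hπ : π ^ (p ^ 2 - 1) = ((p : ℕ) : Qb))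
    {c c₀ : ↥(decomp (pPrime p)) → sl2 k} (hc : c ∈ Z1loc (adRep rbar) (pPrime p))
    (hcF : IsFl p rbar c) (hc₀ : c₀ ∈ Z1loc (adRep rbar) (pPrime p)) (hc₀F : IsFl p rbar c₀)
    (hne : ∃ t ∈ stabilizer (IP p) π, c₀ (IP.toD t) ≠ 0) :
    ∃ a : k, ∀ t ∈ stabilizer (IP p) π, (c - a • c₀) (IP.toD t) = 0 := by
  have hp : p.Prime := Fact.out
  obtain ⟨M, hM, hMz⟩ := exists_common_flatKer hcF hc₀F
  have hMo := hM.isOpenIn
  have hK := hM.kumOK hπ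
  have hN := rbar_eq_one_of_mem_stabilizer hcont hS hπ
  obtain ⟨hφD, hFrv, hFr⟩ := frob_data hS.frob
  have hne' : NeZero ((p : ℕ) : Qb) := ⟨by exact_mod_cast hp.ne_zero⟩
  obtain ⟨ζ, hζ⟩ := HasEnoughRootsOfUnity.exists_primitiveRoot Qb p
  -- the diagonal entries vanish
  have h00 : ∀ t ∈ stabilizer (IP p) π, ent g₀ c 0 0 t = 0 :=
    kt_h hp hp2 isSH_IP harch_vP hπ hMo hK
      (isGoodHom_ent_zero_zero hS hc hN (fun s hs => (hMz s hs).2.1))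
  have h00' : ∀ t ∈ stabilizer (IP p) π, ent g₀ c₀ 0 0 t = 0 :=
    kt_h hp hp2 isSH_IP harch_vP hπ hMo hK
      (isGoodHom_ent_zero_zero hS hc₀ hN (fun s hs => (hMz s hs).2.2))
  -- Frobenius
  have hst : ∀ t ∈ stabilizer (IP p) π, conjIP φ hφD t ∈ stabilizer (IP p) π := fun t ht =>
    conjIP_mem_stabilizer hφD not_dvd_sq_sub_one hπ ht
  have hxy : x / y * (y / x) = 1 := by
    field_simp [hS.x_ne, hS.y_ne]
  have hFF : ∀ {d : ↥(decomp (pPrime p)) → sl2 k}, d ∈ Z1loc (adRep rbar) (pPrime p) →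
      ∀ t ∈ stabilizer (IP p) π, ent g₀ d 0 1 (conjIP φ hφD (conjIP φ hφD t)) = ent g₀ d 0 1 t := by
    intro d hd t ht
    rw [(ent_conj_frob hS hφD hd _ (hN _ (hst t ht))).1, (ent_conj_frob hS hφD hd t (hN t ht)).2,
      ← mul_assoc, hxy, one_mul]
  have h10 : ∀ {d : ↥(decomp (pPrime p)) → sl2 k}, d ∈ Z1loc (adRep rbar) (pPrime p) →
      ∀ t ∈ stabilizer (IP p) π, ent g₀ d 1 0 t = y / x * ent g₀ d 0 1 (conjIP φ hφD t) := by
    intro d hd t ht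
    rw [(ent_conj_frob hS hφD hd t (hN t ht)).1, ← mul_assoc, mul_comm (y / x), hxy, one_mul]
  -- `b₀ ≠ 0`
  have hb₀ : ∃ t ∈ stabilizer (IP p) π, ent g₀ c₀ 0 1 t ≠ 0 := by
    by_contra hcon
    push Not at hcon
    obtain ⟨t, ht, htne⟩ := hne
    refine htne (eq_zero_of_ent g₀ c₀ t (h00' t ht) (hcon t ht) ?_)
    rw [h10 hc₀ t ht, hcon _ (hst t ht), mul_zero]
  obtain ⟨a, ha⟩ := kt_b hp hp2 isSH_IP harch_vP hπ hMo hK hζ ψ
    (fun s hs => hS.psi_eq_one (hN s hs))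
    (fun s n hsn => by rw [hS.psi_pow hdet s]; exact chiK_eq_natCast hζ (s : GQ) n hsn)
    hS.ne (φ : Qb ≃ₐ[ℚ] Qb).toRingEquiv hFrv hFr (conjIP φ hφD) (fun s z => conjIP_smul φ hφD s z)
    (isGoodHom_ent_zero_one hS hc₀ hN (fun s hs => (hMz s hs).2.2))
    (isGoodHom_ent_zero_one hS hc hN (fun s hs => (hMz s hs).2.1))
    (hFF hc₀) (hFF hc) hb₀
  refine ⟨a, fun t ht => ?_⟩
  have hsub : c - a • c₀ = c + (-a) • c₀ := by module
  rw [hsub]
  refine eq_zero_of_ent g₀ _ t ?_ ?_ ?_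
  · rw [ent_add, ent_smul, h00 t ht, h00' t ht]; ring
  · rw [ent_add, ent_smul, ha t ht]; ring
  · rw [ent_add, ent_smul, h10 hc t ht, h10 hc₀ t ht, ha _ (hst t ht)]; ring

/-- **[FLAT-TAN] when `rbar|_{D_p}` has no stable line** -/
theorem exists_flat_condition_irr (hp2 : p ≠ 2) (h2 : (2 : k) ≠ 0) (rbar : GQ →* M2 k)
    (hcont : GaloisFactorsThroughFiniteLevel rbar)
    (hdet : ∀ σ, (rbar σ).det = (chiK p k σ : k))
    (hsplit : ∀ σ, ∃ α β : k, (rbar σ).charpoly = (X - C α) * (X - C β))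
    (hirr : NoLineAt p rbar) :
    ∃ L : Submodule k (↥(decomp (pPrime p)) → sl2 k),
      B1loc (adRep rbar) (pPrime p) ≤ L ∧ L ≤ Z1loc (adRep rbar) (pPrime p) ∧
      Finite ↥L ∧ Nat.card ↥L ≤ Nat.card k ^ 4 ∧
      ∀ (ρ₁ : GaloisRepAdic (DualNumber k)) (r₁ : GQ →* M2 (DualNumber k)),
        S53.HasMatrix ρ₁ r₁ → IsLift rbar r₁ →
        (∀ σ, (r₁ σ).det = TrivSqZeroExt.inl (rbar σ).det) → ρ₁.IsFlatAt p →
        resLoc k (pPrime p) (coc h2 r₁) ∈ L := by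
  have hp : p.Prime := Fact.out
  obtain ⟨g₀, ψ, φ, x, y, hS⟩ := exists_irrStr rbar hcont hsplit hirr
  have he0 : 0 < p ^ 2 - 1 := by
    have : 2 ^ 2 ≤ p ^ 2 := Nat.pow_le_pow_left hp.two_le 2
    omega
  obtain ⟨π, hπ⟩ := IsAlgClosed.exists_pow_nat_eq ((p : ℕ) : Qb) he0
  have hsm := adRep_smooth_levAll rbar hcont
  obtain ⟨hLurfin, hLurcard⟩ := card_Lur_le (adRep rbar) (pPrime p)
  rw [card_sl2] at hLurcard
  have hk1 : 1 ≤ Nat.card k := Nat.card_pos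
  have h34 : Nat.card k ^ 3 ≤ Nat.card k ^ 4 := Nat.pow_le_pow_right hk1 (by norm_num)
  have hidx : (((stabilizer (IP p) π).index : ℕ) : k) ≠ 0 := by
    rw [(isTot_of_pow_eq (isSH_IP (p := p)) hπ).index]
    intro h0
    exact not_dvd_sq_sub_one ((CharP.cast_eq_zero_iff k p _).1 h0)
  by_cases hex : ∃ M : Subgroup (IP p), FlatKer p M ∧ ∀ s ∈ M, rbar (s : GQ) = 1
  · obtain ⟨M₀, hM₀, hM₀r⟩ := hex
    have hcount : Finite ↥(Lfl p rbar) ∧ Nat.card ↥(Lfl p rbar) ≤ Nat.card k ^ 4 := by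
      by_cases hne : ∃ c₀ ∈ Lfl p rbar, ∃ t ∈ stabilizer (IP p) π, c₀ (IP.toD t) ≠ 0
      · obtain ⟨c₀, hc₀, hne₀⟩ := hne
        have hc₀' : c₀ ∈ Z1loc (adRep rbar) (pPrime p) ∧ IsFl p rbar c₀ := by
          rcases hc₀ with rfl | h
          · obtain ⟨t, -, ht⟩ := hne₀
            exact absurd rfl ht
          · exact h
        obtain ⟨hfin, hcard⟩ := card_le_of_line (Lfl p rbar) (Lur (adRep rbar) (pPrime p)) c₀
          (by
            rintro c (rfl | ⟨hc, hcF⟩)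
            · exact ⟨0, by rw [zero_smul, sub_zero]; exact zero_mem _⟩
            · obtain ⟨a, ha⟩ := exists_smul_sub_zero_on hp2 hcont hdet hS hπ hc hcF hc₀'.1 hc₀'.2 hne₀
              exact ⟨a, mem_Lur_of_zero_on (adRep rbar)
                (sub_mem hc (Submodule.smul_mem _ a hc₀'.1)) _ hidx ha⟩)
        refine ⟨hfin, hcard.trans ?_⟩
        calc Nat.card k * Nat.card ↥(Lur (adRep rbar) (pPrime p)) ≤ Nat.card k * Nat.card k ^ 3 :=
              Nat.mul_le_mul_left _ hLurcard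
          _ = Nat.card k ^ 4 := by ring
      · push Not at hne
        have hle : Lfl p rbar ≤ Lur (adRep rbar) (pPrime p) := fun c hc =>
          mem_Lur_of_zero_on (adRep rbar) (Lfl_le_Z1loc rbar hc) _ hidx (hne c hc)
        have hinj : Function.Injective (Submodule.inclusion hle) := Submodule.inclusion_injective hle
        exact ⟨Finite.of_injective _ hinj,
          ((Nat.card_le_card_of_injective _ hinj).trans hLurcard).trans h34⟩
    exact ⟨Lfl p rbar, B1loc_le_Lfl rbar hcont hM₀ hM₀r, Lfl_le_Z1loc rbar, hcount.1, hcount.2,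
      fun ρ₁ r₁ hm hl _ hfl => resLoc_coc_mem_Lfl h2 rbar ρ₁ r₁ hm hl hfl⟩
  · have hle : B1loc (adRep rbar) (pPrime p) ≤ Lur (adRep rbar) (pPrime p) :=
      B1loc_le_Lur _ hsm _
    have hinj : Function.Injective (Submodule.inclusion hle) := Submodule.inclusion_injective hle
    refine ⟨B1loc (adRep rbar) (pPrime p), le_rfl, B1loc_le_Z1loc _ hsm _,
      Finite.of_injective _ hinj,
      ((Nat.card_le_card_of_injective _ hinj).trans hLurcard).trans h34,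
      fun ρ₁ r₁ hm hl _ hfl => ?_⟩
    rcases resLoc_coc_mem_Lfl h2 rbar ρ₁ r₁ hm hl hfl with h0 | ⟨-, M, hM, hMz⟩
    · rw [h0]; exact zero_mem _
    · exact absurd ⟨M, hM, fun s hs => (hMz s hs).1⟩ hex

end Fermat.Agent.S56
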