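import Fermat.Agent.S56.Flat.FK

/-!
# S56 / Flat / Irr / Str : [IRR-STR] structure of `rbar|_{D_p}` when there is no `D_p`-stable line.

`A = primeLocalPlace p`, `D = decomp p`, `I = inert p`, `φ` a Frobenius.  `hsplit`: all eigenvalues in `k`.  API: `S56/Tame/{Basic,Cyc,Ord,Main}.lean`.
(S1) [WILD] `L` finite normal with `rbar = 1` on `Gal(ℚbar/L)`.  `P = {σ ∈ I, WildOn A L σ}` is a subgroup (`WildOn.mul`; inverse: `v (σ⁻¹ x - x) = v (x - σ x)`), normalised by `D`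
     (`v (g σ g⁻¹ x - x) = v (σ (g⁻¹ x) - g⁻¹ x) < v (g⁻¹ x) = v x`, `g⁻¹ x ∈ L`), and `rbar σ ^ (p^a) = 1` for `σ ∈ P` (`WildOn.exists_pow_fix`).
     `Q = rbar(P) ≤ GL₂(k)` is a finite `p`-group acting on the `#k²` vectors: it fixes some `v ≠ 0` (`IsPGroup.exists_fixed_point_of_prime_dvd_card_of_fixed_point`).
     The space `V^Q` is `D`-stable; if `V^Q ≠ V` it is the line `k v`: excluded.  So `Q = 1`.
(S2) [EXP] `rbar s ^ N = 1` for all `s ∈ I`, `N := ` prime-to-`p` part of `#GL₂(k)` (or any `N` prime to `p`): `TameAux.theta s` has order `m` prime to `p` in the residue field (char `p`), `s^m` is wild (`theta_eq_one_iff`), so `rbar s ^ m = 1`: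
     the order of `rbar s` is prime to `p` and divides `#GL₂(k)`.
     Then `tame_cyclic` : `rbar s = M₀ ^ n`, `M₀ = rbar σ₀`; `tame_frob` : `rbar (φ s φ⁻¹) = rbar s ^ p`;  FROB-GEN (`exists_frob_pow_mul_inertia`) + `hcont`: every `rbar σ`, `σ ∈ D`, is `F ^ n * M₀ ^ j`, `F = rbar φ`.
(S3) [LINALG] pure linear algebra (`exists_diag_anti`).  `M₀` has eigenvalues `α, α' ∈ k`.
     * `α = α'`: `M₀ = α (1 + n₀)`, `n₀² = 0`, `M₀^N = 1`, `p ∤ N` ⟹ `n₀ = 0`: `M₀` scalar; an eigenvector of `F` (`hsplit`) spans a stable line.  Excluded.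
     * `α ≠ α'`: eigenlines `ℓ, ℓ'`; `F M₀ F⁻¹ = M₀^p` has the same eigenlines, so `F` permutes `{ℓ, ℓ'}`; if `F ℓ = ℓ` then `ℓ` is stable.  So `F` swaps them: in the basis `(ℓ, ℓ')`: `M₀ = diag(α, α')`, `F` antidiagonal,
       `F M₀ F⁻¹ = diag(α', α) = diag(α^p, α'^p)`.
-/

set_option autoImplicit false

open ExtCitation Polynomial

namespace Fermat.Agent.S56

open CFT (levS levAll decomp Z1 B1 Qb)

variable {p : ℕ} [Fact p.Prime] {k : Type} [Field k]

/-- there is no `D_p`-stable line in `k²` -/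
def NoLineAt (p : ℕ) [Fact p.Prime] (rbar : GQ →* M2 k) : Prop :=
  ∀ v : Fin 2 → k, v ≠ 0 → ∃ σ ∈ decomp (pPrime p), ∀ c : k, (rbar σ).mulVec v ≠ c • v

/-- the shape of `rbar|_{D_p}` in the irreducible case -/
structure IrrStr (p : ℕ) [Fact p.Prime] (rbar : GQ →* M2 k) (g₀ : (M2 k)ˣ) (ψ : IP p →* kˣ) (φ : GQ)
    (x y : k) : Prop where
  diag : ∀ s : IP p, (g₀ : M2 k) * rbar (s : GQ) * ((g₀⁻¹ : (M2 k)ˣ) : M2 k) =
    !![((ψ s : kˣ) : k), 0; 0, ((ψ s : kˣ) : k) ^ p]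
  pow : ∀ s : IP p, ψ s ^ (p ^ 2 - 1) = 1
  ne : ∃ s : IP p, ((ψ s : kˣ) : k) ^ p ≠ ((ψ s : kˣ) : k)
  frob : (primeLocalPlace (pPrime p)).IsFrobeniusAt φ p
  anti : (g₀ : M2 k) * rbar φ * ((g₀⁻¹ : (M2 k)ˣ) : M2 k) = !![0, x; y, 0]
  x_ne : x ≠ 0
  y_ne : y ≠ 0

namespace IrrAux

/-- two vectors with vanishing determinant are proportional -/
theorem exists_smul_of_det_eq_zero {v w : Fin 2 → k} (hv : v ≠ 0)
    (h : v 0 * w 1 - w 0 * v 1 = 0) : ∃ c : k, w = c • v := by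
  by_cases h0 : v 0 = 0
  · have h1 : v 1 ≠ 0 := by
      intro h1
      apply hv
      funext i
      fin_cases i
      · exact h0
      · exact h1
    refine ⟨w 1 / v 1, ?_⟩
    have hw0 : w 0 = 0 := by
      rw [h0, zero_mul, zero_sub, neg_eq_zero] at h
      exact (mul_eq_zero.1 h).resolve_right h1
    funext i
    fin_cases i
    · simp [hw0, h0]
    · simp [h1]
  · refine ⟨w 0 / v 0, ?_⟩
    funext i
    fin_cases i
    · simp [h0]
    · simp only [Fin.mk_one, Fin.isValue, Pi.smul_apply, smul_eq_mul]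
      field_simp
      linear_combination h

/-- the matrix with columns `v`, `w` -/
def colMat (v w : Fin 2 → k) : M2 k := !![v 0, w 0; v 1, w 1]

theorem det_colMat (v w : Fin 2 → k) : (colMat v w).det = v 0 * w 1 - w 0 * v 1 := by
  rw [colMat, Matrix.det_fin_two_of]

theorem mul_colMat (m : M2 k) (v w : Fin 2 → k) :
    m * colMat v w = colMat (m.mulVec v) (m.mulVec w) := by
  ext i j
  fin_cases i <;> fin_cases j <;>
    simp [colMat, Matrix.mul_apply, Matrix.mulVec, dotProduct, Fin.sum_univ_two]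

theorem colMat_smul (v w : Fin 2 → k) (a b : k) :
    colMat (a • v) (b • w) = colMat v w * !![a, 0; 0, b] := by
  ext i j
  fin_cases i <;> fin_cases j <;>
    simp [colMat, Matrix.mul_apply, Fin.sum_univ_two, mul_comm]

/-- a root of the characteristic polynomial is an eigenvalue -/
theorem exists_eigenvector {m : M2 k} {α β : k} (h : m.charpoly = (X - C α) * (X - C β)) :
    ∃ v : Fin 2 → k, v ≠ 0 ∧ m.mulVec v = α • v := by
  have h1 : (m - Matrix.scalar (Fin 2) α).det = 0 := by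
    have h2 := congrArg (Polynomial.eval α) h
    rw [Matrix.charpoly_fin_two] at h2
    simp only [eval_add, eval_sub, eval_pow, eval_X, eval_mul, eval_C, sub_self, zero_mul] at h2
    rw [Matrix.det_fin_two]
    rw [Matrix.trace_fin_two, Matrix.det_fin_two] at h2
    simp only [Matrix.sub_apply, Matrix.scalar_apply, Matrix.diagonal_apply_eq,
      Matrix.diagonal_apply_ne _ (by decide : (0 : Fin 2) ≠ 1),
      Matrix.diagonal_apply_ne _ (by decide : (1 : Fin 2) ≠ 0), sub_zero]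
    linear_combination h2
  obtain ⟨v, hv, hv'⟩ := Matrix.exists_mulVec_eq_zero_iff.2 h1
  refine ⟨v, hv, ?_⟩
  rw [Matrix.sub_mulVec, sub_eq_zero] at hv'
  rw [hv']
  funext i
  simp [Matrix.mulVec, dotProduct, Matrix.diagonal_apply, Finset.sum_ite_eq]

theorem pow_mulVec_of_eigen {m : M2 k} {v : Fin 2 → k} {α : k} (h : m.mulVec v = α • v) (n : ℕ) :
    (m ^ n).mulVec v = α ^ n • v := by
  induction n with
  | zero => simp
  | succ n ih =>
    rw [pow_succ, ← Matrix.mulVec_mulVec, h, Matrix.mulVec_smul, ih, smul_smul, pow_succ, mul_comm]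

theorem diag_pow (a b : k) (n : ℕ) : (!![a, 0; 0, b] : M2 k) ^ n = !![a ^ n, 0; 0, b ^ n] := by
  induction n with
  | zero =>
    ext i j
    fin_cases i <;> fin_cases j <;> simp
  | succ n ih =>
    rw [pow_succ, ih, Matrix.mul_fin_two]
    simp [pow_succ]

/-! ### wild elements form a subgroup, normalised by the decomposition group -/

theorem wildOn_one (A : ValuationSubring Qb) (L : IntermediateField ℚ Qb) : WildOn A L 1 := by
  refine ⟨Subgroup.one_mem _, fun x _ hx0 => ?_⟩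
  rw [AlgEquiv.one_apply, sub_self, map_zero]
  exact tameP_val_pos hx0

theorem wildOn_inv {A : ValuationSubring Qb} {L : IntermediateField ℚ Qb} (hL : Normal ℚ L) {σ : GQ}
    (hσ : WildOn A L σ) : WildOn A L σ⁻¹ := by
  refine ⟨Subgroup.inv_mem _ hσ.1, fun x hx hx0 => ?_⟩
  have hy : σ⁻¹ x ∈ L := tameP_apply_mem hL σ⁻¹ hx
  have hy0 : σ⁻¹ x ≠ 0 := by simpa using hx0
  have hσy : σ (σ⁻¹ x) = x := by rw [← AlgEquiv.mul_apply, mul_inv_cancel, AlgEquiv.one_apply]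
  have h := hσ.2 _ hy hy0
  rw [hσy, tameP_val_apply (Subgroup.inv_mem _ hσ.1) x] at h
  rwa [← Valuation.map_neg, neg_sub]

theorem wildOn_conj {A : ValuationSubring Qb} {L : IntermediateField ℚ Qb} (hL : Normal ℚ L)
    {g σ : GQ} (hg : g ∈ A.decompositionSubgroup ℚ) (hσ : WildOn A L σ) :
    WildOn A L (g * σ * g⁻¹) := by
  refine ⟨tameP_conj_mem hg hσ.1, fun x hx hx0 => ?_⟩
  have hy : g⁻¹ x ∈ L := tameP_apply_mem hL g⁻¹ hx
  have hy0 : g⁻¹ x ≠ 0 := by simpa using hx0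
  have hgy : g (g⁻¹ x) = x := by rw [← AlgEquiv.mul_apply, mul_inv_cancel, AlgEquiv.one_apply]
  have e : (g * σ * g⁻¹) x - x = g (σ (g⁻¹ x) - g⁻¹ x) := by
    rw [map_sub, hgy]; rfl
  rw [e, Bridge.valuation_apply_of_mem_decomposition hg]
  have h := hσ.2 _ hy hy0
  rwa [Bridge.valuation_apply_of_mem_decomposition (Subgroup.inv_mem _ hg) x] at h

/-- the subgroup of the elements which are wild on `L` -/
def wildSub (A : ValuationSubring Qb) (L : IntermediateField ℚ Qb) (hL : Normal ℚ L) :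
    Subgroup GQ where
  carrier := {σ | WildOn A L σ}
  mul_mem' := fun h h' => WildOn.mul hL h h'
  one_mem' := wildOn_one A L
  inv_mem' := fun h => wildOn_inv hL h

theorem prime_dvd_card_vec (p : ℕ) [Finite k] [CharP k p] : p ∣ Nat.card (Fin 2 → k) := by
  have h1 : p = addOrderOf (1 : k) := CharP.eq k inferInstance (CharP.addOrderOf_one k)
  have h2 : p ∣ Nat.card k := by
    rw [h1]; exact addOrderOf_dvd_natCard 1
  rw [Nat.card_fun]
  exact dvd_pow h2 (by simp)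

end IrrAux

open IrrAux

/-- (S1) -/
theorem rbar_eq_one_of_wildOn [Finite k] [CharP k p] (rbar : GQ →* M2 k) (hirr : NoLineAt p rbar)
    {L : IntermediateField ℚ Qb} [FiniteDimensional ℚ L] (hL : Normal ℚ L)
    (hcont : ∀ σ : GQ, (∀ x ∈ L, σ x = x) → rbar σ = 1) {σ : GQ}
    (hσ : WildOn (primeLocalPlace (pPrime p)) L σ) : rbar σ = 1 := by
  have hp : p.Prime := Fact.out
  have hA : (primeLocalPlace (pPrime p)).LiesOverPrime p := liesOver_pP
  set A := primeLocalPlace (pPrime p) with hAdef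
  set r : GQ →* (M2 k)ˣ := rbar.toHomUnits with hr
  have hrv : ∀ g, ((r g : (M2 k)ˣ) : M2 k) = rbar g := fun g => rfl
  set Q : Subgroup (M2 k)ˣ := (wildSub A L hL).map r with hQdef
  have hQ : IsPGroup p Q := by
    rintro ⟨_, τ, hτ, rfl⟩
    obtain ⟨a, ha⟩ := WildOn.exists_pow_fix hp hA hL (σ := τ) hτ
    refine ⟨a, ?_⟩
    apply Subtype.ext
    apply Units.ext
    change (rbar τ) ^ (p ^ a) = 1
    rw [← map_pow]
    exact hcont _ ha
  let _ : MulAction Q (Fin 2 → k) :=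
    { smul := fun g v => (((g : (M2 k)ˣ) : M2 k)).mulVec v
      one_smul := fun v => Matrix.one_mulVec v
      mul_smul := fun g h v => (Matrix.mulVec_mulVec v _ _).symm }
  obtain ⟨v, hvfix, hv0⟩ := hQ.exists_fixed_point_of_prime_dvd_card_of_fixed_point (Fin 2 → k)
    (prime_dvd_card_vec p) (a := 0) (fun g => Matrix.mulVec_zero _)
  have hfix : ∀ τ, WildOn A L τ → (rbar τ).mulVec v = v :=
    fun τ hτ => hvfix ⟨r τ, τ, hτ, rfl⟩
  obtain ⟨g, hg, hgv⟩ := hirr v hv0.symm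
  have hfixw : (rbar σ).mulVec ((rbar g).mulVec v) = (rbar g).mulVec v := by
    have h1 : WildOn A L (g⁻¹ * σ * g) := by
      have := wildOn_conj hL (Subgroup.inv_mem _ hg) hσ
      rwa [inv_inv] at this
    have h2 : rbar σ * rbar g = rbar g * rbar (g⁻¹ * σ * g) := by
      rw [← map_mul, ← map_mul]
      congr 1
      group
    rw [Matrix.mulVec_mulVec, h2, ← Matrix.mulVec_mulVec, hfix _ h1]
  have hdet : (colMat v ((rbar g).mulVec v)).det ≠ 0 := by
    intro h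
    rw [det_colMat] at h
    obtain ⟨c, hc⟩ := exists_smul_of_det_eq_zero hv0.symm h
    exact hgv c hc
  have hU : IsUnit (colMat v ((rbar g).mulVec v)) :=
    (Matrix.isUnit_iff_isUnit_det _).2 (isUnit_iff_ne_zero.2 hdet)
  apply hU.mul_right_cancel
  rw [one_mul, mul_colMat, hfix σ hσ, hfixw]

/-- (S2) -/
theorem exists_exponent_inertia [Finite k] [CharP k p] (rbar : GQ →* M2 k)
    (hcont : GaloisFactorsThroughFiniteLevel rbar) (hirr : NoLineAt p rbar) :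
    ∃ N : ℕ, Nat.Coprime N p ∧ ∀ s : IP p, rbar (s : GQ) ^ N = 1 := by
  have hp : p.Prime := Fact.out
  have hA : (primeLocalPlace (pPrime p)).LiesOverPrime p := liesOver_pP
  set A := primeLocalPlace (pPrime p) with hAdef
  obtain ⟨L₀, hfin₀, hL₀⟩ := hcont
  set L := IntermediateField.normalClosure ℚ L₀ Qb with hLdef
  have : FiniteDimensional ℚ L := normalClosure.is_finiteDimensional ℚ L₀ Qb
  have hL : Normal ℚ L := normalClosure.normal ℚ L₀ Qb
  have hc : ∀ σ : GQ, (∀ x ∈ L, σ x = x) → rbar σ = 1 :=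
    fun σ hσ => hL₀ σ (fun x hx => hσ x (IntermediateField.le_normalClosure L₀ hx))
  obtain ⟨π, hπL, hπ, hgen⟩ := exists_uniformizer_field hp hA L hL
  have : CharP (IsLocalRing.ResidueField A) p := by
    refine (CharP.charP_iff_prime_eq_zero hp).mpr ?_
    obtain ⟨ha, hm⟩ := ValuationSubring.mem_nonunits_iff_exists_mem_maximalIdeal.mp hA
    have h1 : (⟨(p : Qb), ha⟩ : A) = (p : A) := Subtype.ext (by simp)
    rw [h1] at hm
    have := (IsLocalRing.residue_eq_zero_iff _).mpr hm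
    rwa [map_natCast] at this
  have key : ∀ s : IP p, ∃ m : ℕ, Nat.Coprime m p ∧ rbar (s : GQ) ^ m = 1 := by
    intro s
    obtain ⟨n, hn0, hn⟩ := TameAux.exists_pow_fix_field L hL (s : GQ)
    obtain ⟨e, m, hm, rfl⟩ := Nat.exists_eq_pow_mul_and_not_dvd hn0.ne' p hp.ne_one
    have h1 : TameAux.theta A hπ s ^ (p ^ e * m) = 1 := by
      rw [← map_pow, TameAux.theta_eq_one_iff]
      have : (((s ^ (p ^ e * m) : IP p) : GQ)) π = π := hn π hπL
      rw [this, sub_self, map_zero]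
      exact tameP_val_pos hπ
    have h2 : TameAux.theta A hπ s ^ m = 1 := by
      rw [mul_comm, pow_mul] at h1
      have h3 : (TameAux.theta A hπ s ^ m - 1) ^ (p ^ e) = 0 := by
        rw [sub_pow_char_pow, h1, one_pow, sub_self]
      exact sub_eq_zero.1 (pow_eq_zero_iff (pow_ne_zero e hp.ne_zero) |>.1 h3)
    have h3 : WildOn A L ((s : GQ) ^ m) :=
      wildOn_of_uniformizer hπ hgen (Subgroup.pow_mem _ s.2 m)
        ((TameAux.theta_eq_one_iff hπ (s ^ m)).1 (by rw [map_pow, h2]))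
    exact ⟨m, ((Nat.Prime.coprime_iff_not_dvd hp).2 hm).symm, by
      rw [← map_pow]; exact rbar_eq_one_of_wildOn rbar hirr hL hc h3⟩
  have hC0 : Nat.card (M2 k)ˣ ≠ 0 := Nat.card_pos.ne'
  obtain ⟨e, N, hN, hC⟩ := Nat.exists_eq_pow_mul_and_not_dvd hC0 p hp.ne_one
  refine ⟨N, ((Nat.Prime.coprime_iff_not_dvd hp).2 hN).symm, fun s => ?_⟩
  obtain ⟨m, hm, hsm⟩ := key s
  set u : (M2 k)ˣ := rbar.toHomUnits (s : GQ) with hu
  have hu1 : u ^ m = 1 := Units.ext hsm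
  have hu2 : u ^ (p ^ e * N) = 1 := by rw [← hC]; exact pow_card_eq_one'
  have h1 : orderOf u ∣ m := orderOf_dvd_of_pow_eq_one hu1
  have h2 : orderOf u ∣ p ^ e * N := orderOf_dvd_of_pow_eq_one hu2
  have h3 : Nat.Coprime (orderOf u) (p ^ e) := Nat.Coprime.pow_right e (Nat.Coprime.coprime_dvd_left h1 hm)
  have h4 : orderOf u ∣ N := h3.dvd_of_dvd_mul_left h2
  have h5 : u ^ N = 1 := orderOf_dvd_iff_pow_eq_one.1 h4
  exact congrArg Units.val h5

/-- (S3), pure linear algebra.  `gen`: the group generated by `F` and `M₀` has no stable line. -/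
theorem exists_diag_anti [CharP k p] (M₀ F Fi : M2 k) (hF : F * Fi = 1) {N : ℕ} (hN : Nat.Coprime N p)
    (hM₀ : M₀ ^ N = 1) (hconj : F * M₀ * Fi = M₀ ^ p)
    (hsM : ∃ α β : k, M₀.charpoly = (X - C α) * (X - C β))
    (hsF : ∃ α β : k, F.charpoly = (X - C α) * (X - C β))
    (hirr : ∀ v : Fin 2 → k, v ≠ 0 → (∀ c : k, M₀.mulVec v ≠ c • v) ∨ (∀ c : k, F.mulVec v ≠ c • v)) :
    ∃ (g₀ : (M2 k)ˣ) (α x y : k), α ^ p ≠ α ∧ α ^ (p ^ 2) = α ∧ α ≠ 0 ∧ x ≠ 0 ∧ y ≠ 0 ∧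
      (g₀ : M2 k) * M₀ * ((g₀⁻¹ : (M2 k)ˣ) : M2 k) = !![α, 0; 0, α ^ p] ∧
      (g₀ : M2 k) * F * ((g₀⁻¹ : (M2 k)ˣ) : M2 k) = !![0, x; y, 0] := by
  have hp : p.Prime := Fact.out
  have hF' : Fi * F = 1 := mul_eq_one_comm.1 hF
  obtain ⟨α, β, hαβ⟩ := hsM
  obtain ⟨v, hv, hMv⟩ := exists_eigenvector hαβ
  -- `α ≠ 0`
  have hN0 : N ≠ 0 := by
    rintro rfl
    rw [Nat.coprime_zero_left] at hN
    exact hp.one_lt.ne' hN
  have hα0 : α ≠ 0 := by
    rintro rfl
    have h1 := pow_mulVec_of_eigen hMv N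
    rw [hM₀, Matrix.one_mulVec, zero_pow hN0, zero_smul] at h1
    exact hv h1
  -- `w = Fi v`
  have hcomm : M₀ * Fi = Fi * M₀ ^ p := by
    rw [← hconj, ← mul_assoc, ← mul_assoc, hF', one_mul]
  set w : Fin 2 → k := Fi.mulVec v with hw
  have hMw : M₀.mulVec w = α ^ p • w := by
    rw [hw, Matrix.mulVec_mulVec, hcomm, ← Matrix.mulVec_mulVec, pow_mulVec_of_eigen hMv,
      Matrix.mulVec_smul]
  have hFw : F.mulVec w = v := by
    rw [hw, Matrix.mulVec_mulVec, hF, Matrix.one_mulVec]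
  have hdet : (colMat v w).det ≠ 0 := by
    intro h
    rw [det_colMat] at h
    obtain ⟨c, hc⟩ := exists_smul_of_det_eq_zero hv h
    have hc0 : c ≠ 0 := by
      rintro rfl
      rw [zero_smul] at hc
      rw [hc, Matrix.mulVec_zero] at hFw
      exact hv hFw.symm
    rcases hirr v hv with h1 | h1
    · exact h1 α hMv
    · apply h1 c⁻¹
      rw [hc, Matrix.mulVec_smul] at hFw
      calc F.mulVec v = c⁻¹ • (c • F.mulVec v) := by rw [smul_smul, inv_mul_cancel₀ hc0, one_smul]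
        _ = c⁻¹ • v := by rw [hFw]
  set Pu : (M2 k)ˣ := Matrix.nonsingInvUnit (colMat v w) (isUnit_iff_ne_zero.2 hdet) with hPu
  have hPv : (Pu : M2 k) = colMat v w := rfl
  set g₀ : (M2 k)ˣ := Pu⁻¹ with hg₀
  have hMP : M₀ * colMat v w = colMat v w * !![α, 0; 0, α ^ p] := by
    rw [mul_colMat, hMv, hMw, colMat_smul]
  have hg1 : (g₀ : M2 k) * M₀ * ((g₀⁻¹ : (M2 k)ˣ) : M2 k) = !![α, 0; 0, α ^ p] := by
    rw [hg₀, inv_inv, hPv, mul_assoc, hMP, ← mul_assoc, ← hPv, Units.inv_mul, one_mul]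
  -- `α ^ p ≠ α`
  have hne : α ^ p ≠ α := by
    intro h
    rw [h] at hg1
    have h1 : (!![α, 0; 0, α] : M2 k) = α • (1 : M2 k) := by
      ext i j
      fin_cases i <;> fin_cases j <;> simp
    have h2 : M₀ = α • (1 : M2 k) := by
      calc M₀ = ((g₀⁻¹ : (M2 k)ˣ) : M2 k) * ((g₀ : M2 k) * M₀ * ((g₀⁻¹ : (M2 k)ˣ) : M2 k)) * (g₀ : M2 k) := by
            simp only [mul_assoc, Units.inv_mul, mul_one, Units.inv_mul_cancel_left]
        _ = α • (1 : M2 k) := by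
            rw [hg1, h1, mul_smul_comm, mul_one, smul_mul_assoc, Units.inv_mul]
    obtain ⟨a, b, hab⟩ := hsF
    obtain ⟨u, hu, hFu⟩ := exists_eigenvector hab
    rcases hirr u hu with h3 | h3
    · apply h3 α
      rw [h2, Matrix.smul_mulVec, Matrix.one_mulVec]
    · exact h3 a hFu
  have hne2 : (α ^ p) ^ p ≠ α ^ p := fun h => hne (frobenius_inj k p h)
  -- the conjugate of `F`
  set G : M2 k := (g₀ : M2 k) * F * ((g₀⁻¹ : (M2 k)ˣ) : M2 k) with hG
  set Gi : M2 k := (g₀ : M2 k) * Fi * ((g₀⁻¹ : (M2 k)ˣ) : M2 k) with hGi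
  have hGGi : G * Gi = 1 := by
    rw [hG, hGi]
    calc _ = (g₀ : M2 k) * (F * (((g₀⁻¹ : (M2 k)ˣ) : M2 k) * (g₀ : M2 k)) * Fi) * ((g₀⁻¹ : (M2 k)ˣ) : M2 k) := by
          simp only [mul_assoc]
      _ = 1 := by rw [Units.inv_mul, mul_one, hF, mul_one, Units.mul_inv]
  have hGiG : Gi * G = 1 := mul_eq_one_comm.1 hGGi
  have hGD : G * !![α, 0; 0, α ^ p] = !![α ^ p, 0; 0, (α ^ p) ^ p] * G := by
    have h1 : G * !![α, 0; 0, α ^ p] * Gi = !![α ^ p, 0; 0, (α ^ p) ^ p] := by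
      rw [← diag_pow, ← hg1, Units.conj_pow, ← hconj, hG, hGi]
      simp only [mul_assoc, Units.inv_mul_cancel_left]
    rw [← h1, mul_assoc _ Gi G, hGiG, mul_one]
  have h00 := congrFun (congrFun hGD 0) 0
  have h10 := congrFun (congrFun hGD 1) 0
  have h11 := congrFun (congrFun hGD 1) 1
  simp only [Matrix.mul_apply, Fin.sum_univ_two, Matrix.of_apply, Matrix.cons_val', Matrix.cons_val_zero,
    Matrix.cons_val_one, Matrix.cons_val_fin_one, mul_zero, zero_mul, add_zero, zero_add] at h00 h10 h11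
  have ha : G 0 0 = 0 := by
    have : G 0 0 * (α ^ p - α) = 0 := by linear_combination -h00
    exact (mul_eq_zero.1 this).resolve_right (sub_ne_zero.2 hne)
  have hd : G 1 1 = 0 := by
    have : G 1 1 * ((α ^ p) ^ p - α ^ p) = 0 := by linear_combination -h11
    exact (mul_eq_zero.1 this).resolve_right (sub_ne_zero.2 hne2)
  have hdetG : G.det ≠ 0 := by
    intro h
    have := congrArg Matrix.det hGGi
    rw [Matrix.det_mul, h, zero_mul, Matrix.det_one] at this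
    exact zero_ne_one this
  rw [Matrix.det_fin_two, ha, hd, mul_zero, zero_sub, neg_ne_zero] at hdetG
  have hb : G 0 1 ≠ 0 := left_ne_zero_of_mul hdetG
  have hc : G 1 0 ≠ 0 := right_ne_zero_of_mul hdetG
  have hα2 : α ^ (p ^ 2) = α := by
    have : G 1 0 * ((α ^ p) ^ p - α) = 0 := by linear_combination -h10
    rw [sq, pow_mul]
    exact sub_eq_zero.1 ((mul_eq_zero.1 this).resolve_left hc)
  refine ⟨g₀, α, G 0 1, G 1 0, hne, hα2, hα0, hb, hc, hg1, ?_⟩
  have h := Matrix.eta_fin_two G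
  rw [ha, hd] at h
  exact h

/-- **[IRR-STR]** -/
theorem exists_irrStr [Finite k] [CharP k p] (rbar : GQ →* M2 k)
    (hcont : GaloisFactorsThroughFiniteLevel rbar)
    (hsplit : ∀ σ, ∃ α β : k, (rbar σ).charpoly = (X - C α) * (X - C β))
    (hirr : NoLineAt p rbar) :
    ∃ (g₀ : (M2 k)ˣ) (ψ : IP p →* kˣ) (φ : GQ) (x y : k), IrrStr p rbar g₀ ψ φ x y := by
  have hp : p.Prime := Fact.out
  have hA : (primeLocalPlace (pPrime p)).LiesOverPrime p := liesOver_pP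
  obtain ⟨N, hN, htors⟩ := exists_exponent_inertia rbar hcont hirr
  set h : IP p →* M2 k := rbar.comp (inert (pPrime p)).subtype with hh
  have hcont' : ∃ L : IntermediateField ℚ Qb, FiniteDimensional ℚ L ∧
      ∀ σ : IP p, (∀ x ∈ L, (σ : GQ) x = x) → h σ = 1 := by
    obtain ⟨L, hfin, hL⟩ := hcont
    exact ⟨L, hfin, fun σ hσ => hL _ hσ⟩
  obtain ⟨σ₀, hσ₀⟩ := tame_cyclic hp hA h hcont' N hN htors
  obtain ⟨φ, hφ⟩ := exists_isFrobeniusAt hp hA
  have hφD := hφ.mem_decompositionSubgroup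
  have hconjmem : φ * (σ₀ : GQ) * φ⁻¹ ∈ inert (pPrime p) := tameP_conj_mem hφD σ₀.2
  have hfr := tame_frob hp hA h hcont' N hN htors hφ σ₀ hconjmem
  set M₀ : M2 k := rbar (σ₀ : GQ) with hM₀
  set F : M2 k := rbar φ with hFdef
  set Fi : M2 k := rbar φ⁻¹ with hFidef
  have hF : F * Fi = 1 := by rw [hFdef, hFidef, ← map_mul, mul_inv_cancel, map_one]
  have hconj : F * M₀ * Fi = M₀ ^ p := by
    rw [hFdef, hFidef, hM₀, ← map_mul, ← map_mul]; exact hfr
  have hirr' : ∀ v : Fin 2 → k, v ≠ 0 →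
      (∀ c : k, M₀.mulVec v ≠ c • v) ∨ (∀ c : k, F.mulVec v ≠ c • v) := by
    intro v hv
    by_contra hcon
    push Not at hcon
    obtain ⟨⟨c₁, h1⟩, ⟨c₂, h2⟩⟩ := hcon
    obtain ⟨σ, hσ, hσv⟩ := hirr v hv
    obtain ⟨L, hfin, hL⟩ := hcont
    obtain ⟨n, τ, hτ, hστ⟩ := exists_frob_pow_mul_inertia hp hA hφ L hσ
    have h3 : rbar σ = rbar (φ ^ n * τ) := by
      have h4 : rbar ((φ ^ n * τ)⁻¹ * σ) = 1 := hL _ (fun x hx => by
        rw [AlgEquiv.mul_apply, hστ x hx, ← AlgEquiv.mul_apply, inv_mul_cancel, AlgEquiv.one_apply])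
      rw [map_mul] at h4
      calc rbar σ = rbar (φ ^ n * τ) * (rbar (φ ^ n * τ)⁻¹ * rbar σ) := by
            rw [← mul_assoc, ← map_mul, mul_inv_cancel, map_one, one_mul]
        _ = _ := by rw [h4, mul_one]
    obtain ⟨j, hj⟩ := hσ₀ ⟨τ, hτ⟩
    have h4 : rbar τ = M₀ ^ j := hj
    apply hσv (c₂ ^ n * c₁ ^ j)
    rw [h3, map_mul, map_pow, h4, ← Matrix.mulVec_mulVec, pow_mulVec_of_eigen h1,
      Matrix.mulVec_smul, pow_mulVec_of_eigen h2, smul_smul, mul_comm]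
  obtain ⟨g₀, α, x, y, hne, hα2, hα0, hx, hy, hgM, hgF⟩ :=
    exists_diag_anti M₀ F Fi hF hN (htors σ₀) hconj (hsplit _) (hsplit _) hirr'
  have hdiag : ∀ s : IP p, ∃ n : ℕ, (g₀ : M2 k) * rbar (s : GQ) * ((g₀⁻¹ : (M2 k)ˣ) : M2 k) =
      !![α ^ n, 0; 0, (α ^ n) ^ p] := by
    intro s
    obtain ⟨n, hn⟩ := hσ₀ s
    refine ⟨n, ?_⟩
    have h1 : rbar (s : GQ) = M₀ ^ n := hn
    rw [h1, ← Units.conj_pow, hgM, diag_pow, ← pow_mul, ← pow_mul, mul_comm p n]
  let ψ₀ : IP p →* k :=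
    { toFun := fun s => ((g₀ : M2 k) * rbar (s : GQ) * ((g₀⁻¹ : (M2 k)ˣ) : M2 k)) 0 0
      map_one' := by
        simp
      map_mul' := by
        intro s t
        obtain ⟨n, hn⟩ := hdiag s
        obtain ⟨m, hm⟩ := hdiag t
        have h1 : (g₀ : M2 k) * rbar ((s * t : IP p) : GQ) * ((g₀⁻¹ : (M2 k)ˣ) : M2 k) =
            ((g₀ : M2 k) * rbar (s : GQ) * ((g₀⁻¹ : (M2 k)ˣ) : M2 k)) *
              ((g₀ : M2 k) * rbar (t : GQ) * ((g₀⁻¹ : (M2 k)ˣ) : M2 k)) := by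
          rw [Subgroup.coe_mul, map_mul]
          simp only [mul_assoc, Units.inv_mul_cancel_left]
        rw [h1, hn, hm, Matrix.mul_fin_two]
        simp }
  have hψ₀ : ∀ (s : IP p) (n : ℕ), (g₀ : M2 k) * rbar (s : GQ) * ((g₀⁻¹ : (M2 k)ˣ) : M2 k) =
      !![α ^ n, 0; 0, (α ^ n) ^ p] → ((ψ₀.toHomUnits s : kˣ) : k) = α ^ n := by
    intro s n hn
    change ((g₀ : M2 k) * rbar (s : GQ) * ((g₀⁻¹ : (M2 k)ˣ) : M2 k)) 0 0 = _
    rw [hn]
    rfl
  have hα1 : α ^ (p ^ 2 - 1) = 1 := by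
    have h1 : p ^ 2 = (p ^ 2 - 1) + 1 := (Nat.sub_add_cancel (Nat.one_le_pow _ _ hp.pos)).symm
    rw [h1, pow_succ] at hα2
    exact mul_right_cancel₀ hα0 (by rw [hα2, one_mul])
  refine ⟨g₀, ψ₀.toHomUnits, φ, x, y, ?_, ?_, ?_, hφ, hgF, hx, hy⟩
  · intro s
    obtain ⟨n, hn⟩ := hdiag s
    rw [hψ₀ s n hn]
    exact hn
  · intro s
    obtain ⟨n, hn⟩ := hdiag s
    apply Units.ext
    rw [Units.val_pow_eq_pow_val, hψ₀ s n hn, ← pow_mul, mul_comm, pow_mul, hα1, one_pow,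
      Units.val_one]
  · refine ⟨σ₀, ?_⟩
    rw [hψ₀ σ₀ 1 (by rw [pow_one]; exact hgM), pow_one]
    exact hne

end Fermat.Agent.S56
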