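import Fermat.Agent.S56.Flat.Ord.Shape

/-!
# S56 / Flat / Irr / StrLin : (S3) of [IRR-STR], pure linear algebra.
-/

set_option autoImplicit false
set_option linter.unusedSectionVars false

open Polynomial

namespace Fermat.Agent.S56

open Flat

section

variable {k : Type} [Field k]

/-- the matrix of `m` in the basis `(u₁, u₂)` -/
theorem conj_eq_of {u₁ u₂ : Fin 2 → k} (h : (colMat u₁ u₂).det ≠ 0) {m : M2 k} {a b c d : k}
    (h1 : m.mulVec u₁ = a • u₁ + b • u₂) (h2 : m.mulVec u₂ = c • u₁ + d • u₂) :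
    ((colUnit u₁ u₂ h : (M2 k)ˣ) : M2 k) * m * (((colUnit u₁ u₂ h)⁻¹ : (M2 k)ˣ) : M2 k) =
      !![a, c; b, d] := by
  obtain ⟨e00, e10⟩ := shape_eq_of_comb_eq h ((conj_col u₁ u₂ h m 0).symm.trans h1)
  obtain ⟨e01, e11⟩ := shape_eq_of_comb_eq h ((conj_col u₁ u₂ h m 1).symm.trans h2)
  ext i j
  fin_cases i <;> fin_cases j
  · exact e00
  · exact e01
  · exact e10
  · exact e11

/-- an eigenvector for a root of the characteristic polynomial -/
theorem exists_eigenvector_of_charpoly {m : M2 k} {α β : k}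
    (h : m.charpoly = (X - C α) * (X - C β)) : ∃ v : Fin 2 → k, v ≠ 0 ∧ m.mulVec v = α • v := by
  have h1 : (Matrix.scalar (Fin 2) α - m).det = 0 := by
    rw [← Matrix.eval_charpoly, h]
    simp
  obtain ⟨v, hv, hv0⟩ := Matrix.exists_mulVec_eq_zero_iff.2 h1
  refine ⟨v, hv, ?_⟩
  rw [Matrix.sub_mulVec, sub_eq_zero] at hv0
  rw [← hv0]
  funext i
  simp [Matrix.mulVec, dotProduct, Matrix.scalar_apply, Matrix.diagonal_apply]

theorem pow_mulVec_of_eigen {m : M2 k} {α : k} {v : Fin 2 → k} (h : m.mulVec v = α • v) (n : ℕ) :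
    (m ^ n).mulVec v = α ^ n • v := by
  induction n with
  | zero => simp
  | succ n ih =>
    rw [pow_succ, ← Matrix.mulVec_mulVec, h, Matrix.mulVec_smul, ih, smul_smul, pow_succ, mul_comm]

/-- a matrix of order prime to the characteristic with a double eigenvalue is scalar -/
theorem eq_scalar_of_pow_eq_one {m : M2 k} {α : k} {N : ℕ} (hN : (N : k) ≠ 0) (hm : m ^ N = 1)
    (h : m.charpoly = (X - C α) * (X - C α)) (v : Fin 2 → k) : m.mulVec v = α • v := by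
  have h1 : minpoly k m ∣ X ^ N - C (1 : k) := by
    apply minpoly.dvd
    simp [hm]
  have h2 : Squarefree (minpoly k m) :=
    ((separable_X_pow_sub_C (1 : k) hN one_ne_zero).squarefree).squarefree_of_dvd h1
  have h3 : minpoly k m ∣ (X - C α) ^ 2 := by
    rw [pow_two, ← h]
    exact Matrix.minpoly_dvd_charpoly m
  have h4 : minpoly k m ∣ X - C α :=
    (h2.dvd_pow_iff_dvd two_ne_zero).1 h3
  have h5 : aeval m (X - C α) = 0 := by
    obtain ⟨c, hc⟩ := h4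
    rw [hc, map_mul, minpoly.aeval, zero_mul]
  have h6 : m = algebraMap k (M2 k) α := by
    rw [map_sub, aeval_X, aeval_C, sub_eq_zero] at h5
    exact h5
  rw [h6]
  funext i
  simp [Matrix.mulVec, dotProduct, Matrix.algebraMap_matrix_apply]

end

variable {p : ℕ} [Fact p.Prime] {k : Type} [Field k]

/-- (S3), pure linear algebra. -/
theorem exists_diag_anti_aux [CharP k p] (M₀ F Fi : M2 k) (hF : F * Fi = 1) {N : ℕ}
    (hN : Nat.Coprime N p)
    (hM₀ : M₀ ^ N = 1) (hconj : F * M₀ * Fi = M₀ ^ p)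
    (hsM : ∃ α β : k, M₀.charpoly = (X - C α) * (X - C β))
    (hsF : ∃ α β : k, F.charpoly = (X - C α) * (X - C β))
    (hirr : ∀ v : Fin 2 → k, v ≠ 0 → (∀ c : k, M₀.mulVec v ≠ c • v) ∨ (∀ c : k, F.mulVec v ≠ c • v)) :
    ∃ (g₀ : (M2 k)ˣ) (α x y : k), α ^ p ≠ α ∧ α ^ (p ^ 2) = α ∧ α ≠ 0 ∧ x ≠ 0 ∧ y ≠ 0 ∧
      (g₀ : M2 k) * M₀ * ((g₀⁻¹ : (M2 k)ˣ) : M2 k) = !![α, 0; 0, α ^ p] ∧
      (g₀ : M2 k) * F * ((g₀⁻¹ : (M2 k)ˣ) : M2 k) = !![0, x; y, 0] := by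
  have hp : p.Prime := Fact.out
  have hNk : (N : k) ≠ 0 := by
    intro h0
    have h1 : p ∣ N := (CharP.cast_eq_zero_iff k p N).1 h0
    have h2 : p ∣ 1 := by
      have := Nat.dvd_gcd h1 (dvd_refl p)
      rwa [hN] at this
    exact hp.one_lt.ne' (Nat.dvd_one.1 h2)
  have hN0 : N ≠ 0 := by
    rintro rfl
    exact hNk Nat.cast_zero
  obtain ⟨α, β, hαβ⟩ := hsM
  obtain ⟨a₀, b₀, hab⟩ := hsF
  have hαβ' : M₀.charpoly = (X - C β) * (X - C α) := by rw [hαβ, mul_comm]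
  obtain ⟨v₁, hv₁, e₁⟩ := exists_eigenvector_of_charpoly hαβ
  obtain ⟨v₂, hv₂, e₂⟩ := exists_eigenvector_of_charpoly hαβ'
  have hne : α ≠ β := by
    rintro rfl
    obtain ⟨u, hu, eu⟩ := exists_eigenvector_of_charpoly hab
    rcases hirr u hu with h | h
    · exact h α (eq_scalar_of_pow_eq_one hNk hM₀ hαβ u)
    · exact h a₀ eu
  have hd : (colMat v₁ v₂).det ≠ 0 := by
    intro h0
    obtain ⟨t, ht⟩ := exists_smul_of_det_colMat_eq_zero hv₂ h0
    have h1 : α • v₁ = β • v₁ := by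
      rw [← e₁]
      conv_lhs => rw [ht]
      rw [Matrix.mulVec_smul, e₂, smul_comm, ← ht]
    have h2 : (α - β) • v₁ = 0 := by rw [sub_smul, h1, sub_self]
    rcases smul_eq_zero.1 h2 with h | h
    · exact hne (sub_eq_zero.1 h)
    · exact hv₁ h
  have hFi : Fi * F = 1 := mul_eq_one_comm.1 hF
  have hFM : F * M₀ = M₀ ^ p * F := by
    rw [← hconj, mul_assoc (F * M₀), hFi, mul_one]
  -- coordinates of `F v₁`, `F v₂`
  have c1 := conj_col v₁ v₂ hd F 0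
  have c2 := conj_col v₁ v₂ hd F 1
  obtain ⟨a, ha⟩ : ∃ a : k, a = (((colUnit v₁ v₂ hd : (M2 k)ˣ) : M2 k) * F *
      (((colUnit v₁ v₂ hd)⁻¹ : (M2 k)ˣ) : M2 k)) 0 0 := ⟨_, rfl⟩
  obtain ⟨b, hb⟩ : ∃ b : k, b = (((colUnit v₁ v₂ hd : (M2 k)ˣ) : M2 k) * F *
      (((colUnit v₁ v₂ hd)⁻¹ : (M2 k)ˣ) : M2 k)) 1 0 := ⟨_, rfl⟩
  obtain ⟨c, hc⟩ : ∃ c : k, c = (((colUnit v₁ v₂ hd : (M2 k)ˣ) : M2 k) * F *
      (((colUnit v₁ v₂ hd)⁻¹ : (M2 k)ˣ) : M2 k)) 0 1 := ⟨_, rfl⟩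
  obtain ⟨d, hdd⟩ : ∃ d : k, d = (((colUnit v₁ v₂ hd : (M2 k)ˣ) : M2 k) * F *
      (((colUnit v₁ v₂ hd)⁻¹ : (M2 k)ˣ) : M2 k)) 1 1 := ⟨_, rfl⟩
  rw [← ha, ← hb] at c1
  rw [← hc, ← hdd] at c2
  have c1' : F.mulVec v₁ = a • v₁ + b • v₂ := c1
  have c2' : F.mulVec v₂ = c • v₁ + d • v₂ := c2
  -- the relation `M₀^p F = F M₀` on `v₁`, `v₂`
  have r1 : (a * α ^ p) • v₁ + (b * β ^ p) • v₂ = (a * α) • v₁ + (b * α) • v₂ := by
    have h1 : (M₀ ^ p * F).mulVec v₁ = (F * M₀).mulVec v₁ := by rw [hFM]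
    rw [← Matrix.mulVec_mulVec, ← Matrix.mulVec_mulVec, e₁, Matrix.mulVec_smul, c1',
      Matrix.mulVec_add, Matrix.mulVec_smul, Matrix.mulVec_smul, pow_mulVec_of_eigen e₁,
      pow_mulVec_of_eigen e₂, smul_add, smul_smul, smul_smul, smul_smul, smul_smul,
      mul_comm α a, mul_comm α b] at h1
    exact h1
  have r2 : (c * α ^ p) • v₁ + (d * β ^ p) • v₂ = (c * β) • v₁ + (d * β) • v₂ := by
    have h1 : (M₀ ^ p * F).mulVec v₂ = (F * M₀).mulVec v₂ := by rw [hFM]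
    rw [← Matrix.mulVec_mulVec, ← Matrix.mulVec_mulVec, e₂, Matrix.mulVec_smul, c2',
      Matrix.mulVec_add, Matrix.mulVec_smul, Matrix.mulVec_smul, pow_mulVec_of_eigen e₁,
      pow_mulVec_of_eigen e₂, smul_add, smul_smul, smul_smul, smul_smul, smul_smul,
      mul_comm β c, mul_comm β d] at h1
    exact h1
  obtain ⟨r1a, r1b⟩ := shape_eq_of_comb_eq hd r1
  obtain ⟨r2a, r2b⟩ := shape_eq_of_comb_eq hd r2
  have hb0 : b ≠ 0 := by
    rintro rfl
    rcases hirr v₁ hv₁ with h | h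
    · exact h α e₁
    · exact h a (by rw [c1', zero_smul, add_zero])
  have hc0 : c ≠ 0 := by
    rintro rfl
    rcases hirr v₂ hv₂ with h | h
    · exact h β e₂
    · exact h d (by rw [c2', zero_smul, zero_add])
  have hβp : β ^ p = α := mul_left_cancel₀ hb0 r1b
  have hαp : α ^ p = β := mul_left_cancel₀ hc0 r2a
  have ha0 : a = 0 := by
    rw [hαp] at r1a
    by_contra h
    exact hne (mul_left_cancel₀ h r1a).symm
  have hd0 : d = 0 := by
    rw [hβp] at r2b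
    by_contra h
    exact hne (mul_left_cancel₀ h r2b)
  have hα0 : α ≠ 0 := by
    rintro rfl
    have h1 := pow_mulVec_of_eigen e₁ N
    rw [hM₀, Matrix.one_mulVec, zero_pow hN0, zero_smul] at h1
    exact hv₁ h1
  refine ⟨colUnit v₁ v₂ hd, α, c, b, ?_, ?_, hα0, hc0, hb0, ?_, ?_⟩
  · rw [hαp]; exact hne.symm
  · rw [pow_two, pow_mul, hαp, hβp]
  · rw [hαp]
    exact conj_eq_of hd (by rw [e₁, zero_smul, add_zero]) (by rw [e₂, zero_smul, zero_add])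
  · have := conj_eq_of hd c1' c2'
    rw [ha0, hd0] at this
    exact this

end Fermat.Agent.S56
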