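import Fermat.Agent.S56.Flat.Irr.StrLin

/-!
# S56 / Flat / Irr / StrWild : (S1) of [IRR-STR] : wild inertia acts trivially if there is no stable line.
-/

set_option autoImplicit false
set_option linter.unusedSectionVars false

open ExtCitation

namespace Fermat.Agent.S56

open CFT (levS levAll decomp Z1 B1 Qb)
open Flat

section Wild

variable {A : ValuationSubring Qb} {L : IntermediateField ℚ Qb}

theorem WildOn.one' : WildOn A L 1 :=
  ⟨Subgroup.one_mem _, fun x _ hx0 => by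
    rw [AlgEquiv.one_apply, sub_self, map_zero]
    exact tameP_val_pos hx0⟩

theorem WildOn.inv' {σ : GQ} (hσ : WildOn A L σ) : WildOn A L σ⁻¹ := by
  refine ⟨Subgroup.inv_mem _ hσ.1, fun x hx hx0 => ?_⟩
  have e : A.valuation (σ⁻¹ x - x) = A.valuation (σ x - x) := by
    rw [← tameP_val_apply hσ.1 (σ⁻¹ x - x), map_sub, ← AlgEquiv.mul_apply, mul_inv_cancel,
      AlgEquiv.one_apply, ← neg_sub, Valuation.map_neg]
  rw [e]
  exact hσ.2 x hx hx0

theorem WildOn.conj' (hL : Normal ℚ L) {σ g : GQ} (hσ : WildOn A L σ)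
    (hg : g ∈ A.decompositionSubgroup ℚ) : WildOn A L (g * σ * g⁻¹) := by
  refine ⟨tameP_conj_mem hg hσ.1, fun x hx hx0 => ?_⟩
  have hg' : g⁻¹ ∈ A.decompositionSubgroup ℚ := Subgroup.inv_mem _ hg
  have e : (g * σ * g⁻¹) x - x = g (σ (g⁻¹ x) - g⁻¹ x) := by
    rw [map_sub, AlgEquiv.mul_apply, AlgEquiv.mul_apply, ← AlgEquiv.mul_apply g g⁻¹ x,
      mul_inv_cancel, AlgEquiv.one_apply]
  rw [e, Bridge.valuation_apply_of_mem_decomposition hg,
    ← Bridge.valuation_apply_of_mem_decomposition hg' x]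
  exact hσ.2 _ (tameP_apply_mem hL g⁻¹ hx) (by simpa using hx0)

/-- the wild subgroup -/
def wildSub (A : ValuationSubring Qb) (L : IntermediateField ℚ Qb) (hL : Normal ℚ L) :
    Subgroup GQ where
  carrier := {σ | WildOn A L σ}
  one_mem' := WildOn.one'
  mul_mem' := fun h h' => WildOn.mul hL h h'
  inv_mem' := fun h => WildOn.inv' h

end Wild

variable {p : ℕ} [Fact p.Prime] {k : Type} [Field k]

/-- the action of `GL₂(k)` on column vectors -/
@[reducible] def unitsMulVecAction : MulAction (M2 k)ˣ (Fin 2 → k) where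
  smul g v := (g : M2 k).mulVec v
  one_smul v := Matrix.one_mulVec v
  mul_smul g h v := (Matrix.mulVec_mulVec v (g : M2 k) (h : M2 k)).symm

/-- a group of matrices of `p`-power order has a non zero fixed vector -/
theorem exists_fixed_vector_wild [Finite k] [CharP k p] (rbar : GQ →* M2 k) (P : Subgroup GQ)
    (hP : ∀ σ ∈ P, ∃ a : ℕ, rbar σ ^ (p ^ a) = 1) :
    ∃ b : Fin 2 → k, b ≠ 0 ∧ ∀ σ ∈ P, (rbar σ).mulVec b = b := by
  classical
  letI := unitsMulVecAction (k := k)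
  have := Fintype.ofFinite k
  let r' : GQ →* (M2 k)ˣ := rbar.toHomUnits
  have hr' : ∀ σ, ((r' σ : (M2 k)ˣ) : M2 k) = rbar σ := fun σ => rfl
  let Q : Subgroup (M2 k)ˣ := P.map r'
  have hQ : IsPGroup p ↥Q := by
    rintro ⟨_, σ, hσ, rfl⟩
    obtain ⟨a, ha⟩ := hP σ hσ
    refine ⟨a, Subtype.ext (Units.ext ?_)⟩
    show ((r' σ ^ (p ^ a) : (M2 k)ˣ) : M2 k) = 1
    rw [Units.val_pow_eq_pow_val, hr', ha]
  have hcard : p ∣ Nat.card (Fin 2 → k) := by
    obtain ⟨n, -, hn⟩ := FiniteField.card k p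
    rw [Nat.card_eq_fintype_card, Fintype.card_fun, Fintype.card_fin, hn]
    exact dvd_pow (dvd_pow_self p n.ne_zero) two_ne_zero
  have h0 : (0 : Fin 2 → k) ∈ MulAction.fixedPoints ↥Q (Fin 2 → k) := by
    intro g
    show ((g : (M2 k)ˣ) : M2 k).mulVec 0 = 0
    exact Matrix.mulVec_zero _
  obtain ⟨b, hb, hb0⟩ := hQ.exists_fixed_point_of_prime_dvd_card_of_fixed_point _ hcard h0
  refine ⟨b, hb0.symm, fun σ hσ => ?_⟩
  exact hb ⟨r' σ, σ, hσ, rfl⟩

/-- (S1) -/
theorem rbar_eq_one_of_wildOn_aux [Finite k] [CharP k p] (rbar : GQ →* M2 k)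
    (hirr : ∀ v : Fin 2 → k, v ≠ 0 → ∃ σ ∈ decomp (pPrime p), ∀ c : k, (rbar σ).mulVec v ≠ c • v)
    {L : IntermediateField ℚ Qb} [FiniteDimensional ℚ L] (hL : Normal ℚ L)
    (hcont : ∀ σ : GQ, (∀ x ∈ L, σ x = x) → rbar σ = 1) {σ : GQ}
    (hσ : WildOn (primeLocalPlace (pPrime p)) L σ) : rbar σ = 1 := by
  have hp : p.Prime := Fact.out
  have hA : (primeLocalPlace (pPrime p)).LiesOverPrime p :=
    CFT.LS.liesOverPrime_primeLocalPlace (pPrime p)
  obtain ⟨b, hb0, hb⟩ := exists_fixed_vector_wild (p := p) rbar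
    (wildSub (primeLocalPlace (pPrime p)) L hL) (by
      intro τ hτ
      obtain ⟨a, ha⟩ := WildOn.exists_pow_fix hp hA hL hτ
      exact ⟨a, by rw [← map_pow]; exact hcont _ ha⟩)
  obtain ⟨g, hg, hgb⟩ := hirr b hb0
  -- `v = g b` is fixed by the wild subgroup too
  have hv : ∀ τ, WildOn (primeLocalPlace (pPrime p)) L τ →
      (rbar τ).mulVec ((rbar g).mulVec b) = (rbar g).mulVec b := by
    intro τ hτ
    have h1 : WildOn (primeLocalPlace (pPrime p)) L (g⁻¹ * τ * g⁻¹⁻¹) :=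
      WildOn.conj' hL hτ (Subgroup.inv_mem _ hg)
    have h2 := hb _ h1
    rw [inv_inv] at h2
    have h3 : τ * g = g * (g⁻¹ * τ * g) := by group
    rw [Matrix.mulVec_mulVec, ← map_mul, h3, map_mul, ← Matrix.mulVec_mulVec, h2]
  have hd : (colMat ((rbar g).mulVec b) b).det ≠ 0 := by
    intro h0
    obtain ⟨t, ht⟩ := exists_smul_of_det_colMat_eq_zero hb0 h0
    exact hgb t ht
  have key := conj_eq_of hd (m := rbar σ) (a := 1) (b := 0) (c := 0) (d := 1)
    (by rw [hv σ hσ, one_smul, zero_smul, add_zero]) (by rw [hb σ hσ, one_smul, zero_smul, zero_add])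
  rw [← Matrix.one_fin_two] at key
  have h4 : rbar σ = (((colUnit ((rbar g).mulVec b) b hd)⁻¹ : (M2 k)ˣ) : M2 k) *
      (((colUnit ((rbar g).mulVec b) b hd : (M2 k)ˣ) : M2 k) * rbar σ *
        (((colUnit ((rbar g).mulVec b) b hd)⁻¹ : (M2 k)ˣ) : M2 k)) *
      ((colUnit ((rbar g).mulVec b) b hd : (M2 k)ˣ) : M2 k) := by
    simp only [mul_assoc, Units.inv_mul, mul_one, Units.inv_mul_cancel_left]
  rw [h4, key, mul_one, Units.inv_mul]

end Fermat.Agent.S56
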